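import Mathlib

/-!
# Inflation–restriction in degree 2

For a group `G`, a normal subgroup `S` and a `G`-module `A` with `H¹(S, A) = 0`, the sequence
`0 ⟶ H²(G ⧸ S, A^S) ⟶ H²(G, A) ⟶ H²(S, A)` is exact.  The proof is by explicit manipulation of
inhomogeneous 2-cocycles (three successive coboundary corrections), first for a plain
`DistribMulAction` (section `Pure`), then transported to Mathlib's `groupCohomology`.
-/

set_option autoImplicit false

namespace Fermat.Agent.S55

open groupCohomology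

section Pure

variable {G M : Type*} [Group G] [AddCommGroup M] [DistribMulAction G M]

/-- The coboundary of a 1-cochain (Mathlib's `d₁₂` convention). -/
def ir_d (x : G → M) : G × G → M := fun p => p.1 • x p.2 - x (p.1 * p.2) + x p.1

@[simp] lemma ir_d_apply (x : G → M) (g h : G) : ir_d x (g, h) = g • x h - x (g * h) + x g := rfl

lemma ir_isCocycle₂_d (x : G → M) : IsCocycle₂ (ir_d x) := by
  intro g h j
  simp only [ir_d_apply, smul_add, smul_sub, mul_smul, mul_assoc]
  abel

lemma ir_isCocycle₂_add {f f' : G × G → M} (hf : IsCocycle₂ f) (hf' : IsCocycle₂ f') :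
    IsCocycle₂ (f + f') := by
  intro g h j
  simp only [Pi.add_apply, smul_add]
  have h1 := hf g h j
  have h2 := hf' g h j
  calc f (g * h, j) + f' (g * h, j) + (f (g, h) + f' (g, h))
      = (f (g * h, j) + f (g, h)) + (f' (g * h, j) + f' (g, h)) := by abel
    _ = (g • f (h, j) + f (g, h * j)) + (g • f' (h, j) + f' (g, h * j)) := by rw [h1, h2]
    _ = _ := by abel

variable (S : Subgroup G)

/-- `H¹(S, M) = 0` in cocycle form. -/
def ir_H1Vanish (S : Subgroup G) (M : Type*) [AddCommGroup M] [DistribMulAction G M] : Prop :=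
  ∀ c : S → M, IsCocycle₁ c → IsCoboundary₁ c

/-- Stage 0: a cocycle whose restriction to `S` is a coboundary is cohomologous to one vanishing
on `S × S`. -/
lemma ir_stage0 (f : G × G → M)
    (hres : IsCoboundary₂ (fun p : S × S => f ((p.1 : G), (p.2 : G)))) :
    ∃ x : G → M, ∀ s t : S, (f + ir_d x) ((s : G), (t : G)) = 0 := by
  classical
  obtain ⟨y, hy⟩ := hres
  refine ⟨fun g => if h : g ∈ S then - y ⟨g, h⟩ else 0, fun s t => ?_⟩
  have hst : (s : G) * (t : G) ∈ S := S.mul_mem s.2 t.2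
  simp only [Pi.add_apply, ir_d_apply, dif_pos s.2, dif_pos t.2, dif_pos hst]
  have := hy s t
  simp only [Subgroup.smul_def] at this
  have e : (⟨(s : G) * (t : G), hst⟩ : S) = s * t := rfl
  rw [e, ← this]
  simp only [Subtype.coe_eta, smul_neg]
  abel

section Reps

/-- A coset representative function: `ir_rep S g ∈ g S`. -/
noncomputable def ir_rep (g : G) : G := (g : G ⧸ S).out

lemma ir_rep_inv_mul_mem (g : G) : (ir_rep S g)⁻¹ * g ∈ S := by
  rw [← QuotientGroup.eq]
  exact QuotientGroup.out_eq' _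

lemma ir_rep_mul_mem (g : G) {s : G} (hs : s ∈ S) : ir_rep S (g * s) = ir_rep S g := by
  unfold ir_rep
  rw [QuotientGroup.mk_mul_of_mem g hs]

lemma ir_rep_mem {s : G} (hs : s ∈ S) : ir_rep S s ∈ S := by
  have h := ir_rep_inv_mul_mem S s
  have h2 : (ir_rep S s)⁻¹ ∈ S := by
    have := S.mul_mem h (S.inv_mem hs)
    simpa [mul_assoc] using this
  simpa using S.inv_mem h2

lemma ir_rep_of_mem {s : G} (hs : s ∈ S) : ir_rep S s = ir_rep S 1 := by
  have := ir_rep_mul_mem S 1 hs
  simpa using this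

/-- Stage I: a cocycle vanishing on `S × S` is cohomologous to one with `f (g, s) = 0`. -/
lemma ir_stage1 (f : G × G → M) (hf : IsCocycle₂ f)
    (h0 : ∀ s t : G, s ∈ S → t ∈ S → f (s, t) = 0) :
    ∃ x : G → M, ∀ (g s : G), s ∈ S → (f + ir_d x) (g, s) = 0 := by
  refine ⟨fun g => f (ir_rep S g, (ir_rep S g)⁻¹ * g), fun g s hs => ?_⟩
  simp only [Pi.add_apply, ir_d_apply]
  have hu := ir_rep_inv_mul_mem S g
  rw [ir_rep_mul_mem S g hs, h0 _ _ (ir_rep_mem S hs) (ir_rep_inv_mul_mem S s), smul_zero]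
  have hc := hf (ir_rep S g) ((ir_rep S g)⁻¹ * g) s
  rw [mul_inv_cancel_left, h0 _ _ hu hs, smul_zero, zero_add, mul_assoc] at hc
  rw [← hc]
  abel

/-- Under `f (g, s) = 0`, `f` is right `S`-invariant in the second variable. -/
lemma ir_snd_inv {f : G × G → M} (hf : IsCocycle₂ f)
    (h1 : ∀ (g s : G), s ∈ S → f (g, s) = 0) (g h s : G) (hs : s ∈ S) :
    f (g, h * s) = f (g, h) := by
  have hc := hf g h s
  rw [h1 _ _ hs, h1 _ _ hs, smul_zero, zero_add, zero_add] at hc
  exact hc.symm

variable [S.Normal]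

/-- Stage II: using `H¹(S, M) = 0`, make `f (s, g) = 0` as well. -/
lemma ir_stage2 (hv : ir_H1Vanish S M) (f : G × G → M) (hf : IsCocycle₂ f)
    (h1 : ∀ (g s : G), s ∈ S → f (g, s) = 0) :
    ∃ x : G → M, (∀ (g s : G), s ∈ S → (f + ir_d x) (g, s) = 0) ∧
      (∀ (g s : G), s ∈ S → (f + ir_d x) (s, g) = 0) := by
  have hinv := ir_snd_inv S hf h1
  have hcoc : ∀ g : G, ∃ y : M, ∀ s : S, s • y - y = f ((s : G), g) := by
    intro g
    refine hv (fun s : S => f ((s : G), g)) ?_
    intro s t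
    have hc := hf (s : G) (t : G) g
    rw [h1 _ _ t.2, add_zero] at hc
    have e : (t : G) * g = g * (g⁻¹ * t * g) := by group
    rw [e, hinv _ _ _ (Subgroup.Normal.conj_mem' ‹_› _ t.2 _)] at hc
    simpa [Subgroup.smul_def] using hc
  choose Y hY using hcoc
  have hY' : ∀ (g s : G), s ∈ S → s • Y g - Y g = f (s, g) := fun g s hs => hY g ⟨s, hs⟩
  refine ⟨fun g => -(Y (ir_rep S g) - Y (ir_rep S 1)), ?_, ?_⟩
  · intro g s hs
    simp only [Pi.add_apply, ir_d_apply, h1 _ _ hs, ir_rep_mul_mem S g hs, ir_rep_of_mem S hs,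
      sub_self, neg_zero, smul_zero, zero_add]
    abel
  · intro g s hs
    have e : s * g = g * (g⁻¹ * s * g) := by group
    have hfg : f (s, g) = f (s, ir_rep S g) := by
      have := hinv s (ir_rep S g) _ (ir_rep_inv_mul_mem S g)
      rw [mul_inv_cancel_left] at this
      exact this
    have h3 := hY' (ir_rep S g) s hs
    have h4 := hY' (ir_rep S 1) s hs
    rw [h1 _ _ (ir_rep_mem S S.one_mem)] at h4
    simp only [Pi.add_apply, ir_d_apply, ir_rep_of_mem S hs, sub_self, neg_zero, add_zero]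
    rw [e, ir_rep_mul_mem S g (Subgroup.Normal.conj_mem' ‹_› _ hs _), hfg, ← h3]
    have h5 : s • Y (ir_rep S 1) = Y (ir_rep S 1) := sub_eq_zero.mp h4
    simp only [smul_neg, smul_sub, h5]
    abel

/-- Stage III: a cocycle with `f (g, s) = 0 = f (s, g)` is inflated from `G ⧸ S` and has
`S`-invariant values. -/
lemma ir_stage3 {f : G × G → M} (hf : IsCocycle₂ f)
    (h1 : ∀ (g s : G), s ∈ S → f (g, s) = 0) (h2 : ∀ (g s : G), s ∈ S → f (s, g) = 0) :
    (∀ (g h s t : G), s ∈ S → t ∈ S → f (g * s, h * t) = f (g, h)) ∧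
      (∀ (g h s : G), s ∈ S → s • f (g, h) = f (g, h)) := by
  have hinv := ir_snd_inv S hf h1
  have hA : ∀ (g h s : G), s ∈ S → f (s * g, h) = s • f (g, h) := by
    intro g h s hs
    have hc := hf s g h
    rw [h2 _ _ hs, h2 _ _ hs, add_zero, add_zero] at hc
    exact hc
  have hB : ∀ (g h s : G), s ∈ S → f (g * s, h) = f (g, s * h) := by
    intro g h s hs
    have hc := hf g s h
    rw [h1 _ _ hs, h2 _ _ hs, smul_zero, add_zero, zero_add] at hc
    exact hc
  have hC : ∀ (g h s : G), s ∈ S → f (g * s, h) = f (g, h) := by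
    intro g h s hs
    have e : s * h = h * (h⁻¹ * s * h) := by group
    rw [hB _ _ _ hs, e, hinv _ _ _ (Subgroup.Normal.conj_mem' ‹_› _ hs _)]
  refine ⟨fun g h s t hs ht => by rw [hC _ _ _ hs, hinv _ _ _ ht], fun g h s hs => ?_⟩
  have e : s * g = g * (g⁻¹ * s * g) := by group
  rw [← hA _ _ _ hs, e, hC _ _ _ (Subgroup.Normal.conj_mem' ‹_› _ hs _)]

lemma ir_d_add (x y : G → M) : ir_d (x + y) = ir_d x + ir_d y := by
  funext p
  simp only [ir_d, Pi.add_apply, smul_add]
  abel

/-- `d ∘ d = 0` in degrees 0, 1. -/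
lemma ir_d_d0 (a : M) : ir_d (fun g : G => g • a - a) = 0 := by
  funext p
  simp only [ir_d, Pi.zero_apply, smul_sub, mul_smul]
  abel

/-- **Inflation–restriction in degree 2, existence part, cocycle form.** -/
theorem ir_exists_inflated (hv : ir_H1Vanish S M) (f : G × G → M) (hf : IsCocycle₂ f)
    (hres : IsCoboundary₂ (fun p : S × S => f ((p.1 : G), (p.2 : G)))) :
    ∃ x : G → M,
      (∀ (g h s t : G), s ∈ S → t ∈ S → (f + ir_d x) (g * s, h * t) = (f + ir_d x) (g, h)) ∧
      (∀ (g h s : G), s ∈ S → s • (f + ir_d x) (g, h) = (f + ir_d x) (g, h)) := by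
  obtain ⟨x0, h0⟩ := ir_stage0 S f hres
  have hf0 : IsCocycle₂ (f + ir_d x0) := ir_isCocycle₂_add hf (ir_isCocycle₂_d x0)
  obtain ⟨x1, h1⟩ := ir_stage1 S (f + ir_d x0) hf0 (fun s t hs ht => h0 ⟨s, hs⟩ ⟨t, ht⟩)
  have hf1 : IsCocycle₂ (f + ir_d x0 + ir_d x1) := ir_isCocycle₂_add hf0 (ir_isCocycle₂_d x1)
  obtain ⟨x2, h2, h2'⟩ := ir_stage2 S hv (f + ir_d x0 + ir_d x1) hf1 h1
  have hf2 : IsCocycle₂ (f + ir_d x0 + ir_d x1 + ir_d x2) :=
    ir_isCocycle₂_add hf1 (ir_isCocycle₂_d x2)
  have e : f + ir_d (x0 + x1 + x2) = f + ir_d x0 + ir_d x1 + ir_d x2 := by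
    rw [ir_d_add, ir_d_add]; abel
  refine ⟨x0 + x1 + x2, ?_⟩
  rw [e]
  exact ir_stage3 S hf2 h2 h2'

/-- **Inflation is injective in degree 2, cocycle form**: an inflated cocycle which is a
coboundary is the coboundary of an inflated cochain. -/
theorem ir_inflated_coboundary (hv : ir_H1Vanish S M) (f : G × G → M) (hf : IsCocycle₂ f)
    (hinv : ∀ (g h s t : G), s ∈ S → t ∈ S → f (g * s, h * t) = f (g, h))
    (hval : ∀ (g h s : G), s ∈ S → s • f (g, h) = f (g, h))
    (x : G → M) (hx : f = ir_d x) :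
    ∃ z : G → M, f = ir_d z ∧ (∀ (g s : G), s ∈ S → z (g * s) = z g) ∧
      (∀ (g s : G), s ∈ S → s • z g = z g) := by
  set a0 := f (1, 1) with ha0
  have hfS : ∀ (s t : G), s ∈ S → t ∈ S → f (s, t) = a0 := by
    intro s t hs ht
    have := hinv 1 1 s t hs ht
    simpa using this
  have hxS : ∀ (s t : G), s ∈ S → t ∈ S → s • x t - x (s * t) + x s = a0 := by
    intro s t hs ht
    rw [← hfS s t hs ht, hx]; rfl
  obtain ⟨a, ha⟩ := hv (fun s : S => x (s : G) - a0) (by
    intro s t
    have h3 := hxS s t s.2 t.2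
    have h4 := hval 1 1 s s.2
    simp only [Subgroup.smul_def, Subgroup.coe_mul, smul_sub]
    rw [← ha0] at h4
    rw [h4]
    rw [← h3]
    abel)
  have ha' : ∀ (s : G), s ∈ S → s • a - a = x s - a0 := fun s hs => ha ⟨s, hs⟩
  set z : G → M := fun g => x g - (g • a - a) with hz
  have hdz : ir_d z = ir_d x := by
    have : z = x + (fun g : G => -(g • a - a)) := by
      funext g; simp [hz, sub_eq_add_neg]
    have h5 : (fun g : G => -(g • a - a)) = fun g : G => g • (-a) - (-a) := by
      funext g; simp only [smul_neg]; abel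
    rw [this, ir_d_add, h5, ir_d_d0, add_zero]
  have hzS : ∀ (s : G), s ∈ S → z s = a0 := by
    intro s hs
    simp only [hz, ha' s hs]
    abel
  have hfz : ∀ g h : G, f (g, h) = g • z h - z (g * h) + z g := by
    intro g h
    rw [hx, ← hdz]; rfl
  have hz1 : ∀ (g s : G), s ∈ S → z (g * s) = z g := by
    intro g s hs
    have h6 := hfz g s
    have h7 : f (g, s) = g • a0 := by
      have := hinv g 1 1 s S.one_mem hs
      simp only [mul_one, one_mul] at this
      rw [this, map_one_snd_of_isCocycle₂ hf]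
    rw [h7, hzS s hs] at h6
    have : z g - z (g * s) = 0 := by
      have h8 : g • a0 = g • a0 + (z g - z (g * s)) := by
        conv_lhs => rw [h6]
        abel
      simpa using h8.symm
    exact (sub_eq_zero.mp this).symm
  refine ⟨z, by rw [hdz]; exact hx, hz1, ?_⟩
  intro h s hs
  have h6 := hfz s h
  have h7 : f (s, h) = a0 := by
    have := hinv 1 h s 1 hs S.one_mem
    simp only [mul_one, one_mul] at this
    rw [this, map_one_fst_of_isCocycle₂ hf]
  have e : s * h = h * (h⁻¹ * s * h) := by group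
  rw [h7, hzS s hs, e, hz1 _ _ (Subgroup.Normal.conj_mem' ‹_› _ hs _)] at h6
  have : s • z h - z h = 0 := by
    have h8 : a0 = (s • z h - z h) + a0 := h6
    simpa using h8.symm
  exact sub_eq_zero.mp this

end Reps

end Pure

section RepLevel

universe u

open CategoryTheory Rep

variable {k G : Type u} [CommRing k] [Group G] (A : Rep k G) (S : Subgroup G) [S.Normal]

/-- The `DistribMulAction` on the underlying module of a representation. -/
@[reducible] def ir_dma : DistribMulAction G A.V :=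
  DistribMulAction.compHom A.V (A.ρ : G →* Module.End k A.V)

lemma ir_dma_smul (g : G) (a : A.V) : (letI := ir_dma A; g • a) = A.ρ g a := rfl

lemma ir_isCocycle₂_of_mem (f : cocycles₂ A) : letI := ir_dma A; IsCocycle₂ (f : G × G → A.V) :=
  (mem_cocycles₂_iff f).1 f.2

omit [S.Normal] in
lemma ir_H1Vanish_of_subsingleton
    (h1 : Subsingleton (groupCohomology (Rep.res S.subtype A) 1)) :
    letI := ir_dma A; ir_H1Vanish S A.V := by
  intro c hc
  have hmem : c ∈ cocycles₁ (Rep.res S.subtype A) :=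
    (mem_cocycles₁_iff (A := Rep.res S.subtype A) c).2 (fun g h => hc g h)
  have h0 : H1π (Rep.res S.subtype A) ⟨c, hmem⟩ = 0 := Subsingleton.elim _ _
  obtain ⟨a, ha⟩ := (H1π_eq_zero_iff _).1 h0
  exact ⟨a, fun s => congrFun ha s⟩

/-- Inflation `H²(G ⧸ S, A^S) ⟶ H²(G, A)`. -/
noncomputable abbrev ir_inf₂ : groupCohomology (A.quotientToInvariants S) 2 ⟶ groupCohomology A 2 :=
  map (QuotientGroup.mk' S) (ofHom <| A.ρ.quotientToInvariants_lift S) 2

/-- Restriction `H²(G, A) ⟶ H²(S, A)`. -/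
noncomputable abbrev ir_res₂ : groupCohomology A 2 ⟶ groupCohomology (Rep.res S.subtype A) 2 :=
  map S.subtype (𝟙 _) 2

/-- **Inflation–restriction in degree 2**, exactness at `H²(G, A)`, element form. -/
theorem ir_H2InfRes_exact' (h1 : Subsingleton (groupCohomology (Rep.res S.subtype A) 1))
    (x : groupCohomology A 2)
    (hx : (ir_res₂ A S).hom x = 0) :
    ∃ y : groupCohomology (A.quotientToInvariants S) 2, (ir_inf₂ A S).hom y = x := by
  let _ := ir_dma A
  induction x using H2_induction_on with | h f =>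
  rw [H2π_comp_map_apply] at hx
  obtain ⟨y, hy⟩ := (H2π_eq_zero_iff _).1 hx
  have hres : IsCoboundary₂ (fun p : S × S => (f : G × G → A.V) ((p.1 : G), (p.2 : G))) :=
    ⟨y, fun s t => congrFun hy (s, t)⟩
  obtain ⟨x, hinv, hval⟩ := ir_exists_inflated S (ir_H1Vanish_of_subsingleton A S h1) f
    (ir_isCocycle₂_of_mem A f) hres
  -- the corrected cocycle
  set f' : G × G → A.V := (f : G × G → A.V) + ir_d x with hf'
  have hf'c : IsCocycle₂ f' := ir_isCocycle₂_add (ir_isCocycle₂_of_mem A f) (ir_isCocycle₂_d x)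
  have hrel : ∀ g₁ g₂ h₁ h₂ : G, QuotientGroup.leftRel S g₁ g₂ → QuotientGroup.leftRel S h₁ h₂ →
      f' (g₁, h₁) = f' (g₂, h₂) := by
    intro g₁ g₂ h₁ h₂ hg hh
    rw [QuotientGroup.leftRel_apply] at hg hh
    have := hinv g₁ h₁ _ _ hg hh
    rw [mul_inv_cancel_left, mul_inv_cancel_left] at this
    exact this.symm
  -- the descended cochain
  let fbar : (G ⧸ S) × (G ⧸ S) → (A.quotientToInvariants S).V := fun p =>
    Quotient.liftOn₂' p.1 p.2 (fun g h => (⟨f' (g, h), fun s => hval g h s s.2⟩ :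
      (A.quotientToInvariants S).V))
      (fun g₁ h₁ g₂ h₂ hg hh => Subtype.ext (hrel g₁ g₂ h₁ h₂ hg hh))
  have hfbar : fbar ∈ cocycles₂ (A.quotientToInvariants S) := by
    rw [mem_cocycles₂_iff]
    intro g h j
    induction g using QuotientGroup.induction_on with | H g =>
    induction h using QuotientGroup.induction_on with | H h =>
    induction j using QuotientGroup.induction_on with | H j =>
    apply Subtype.ext
    exact hf'c g h j
  refine ⟨H2π _ ⟨fbar, hfbar⟩, ?_⟩
  rw [H2π_comp_map_apply, H2π_eq_iff]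
  refine ⟨x, ?_⟩
  funext p
  obtain ⟨g, h⟩ := p
  rw [Pi.sub_apply, coe_mapCocycles₂]
  change A.ρ g (x h) - x (g * h) + x g = f' (g, h) - f (g, h)
  simp only [hf', Pi.add_apply, ir_d_apply, add_sub_cancel_left]
  rfl

/-- **Inflation is injective in degree 2** when `H¹(S, A) = 0`. -/
theorem ir_H2InfRes_injective (h1 : Subsingleton (groupCohomology (Rep.res S.subtype A) 1)) :
    Function.Injective (ir_inf₂ A S).hom := by
  let _ := ir_dma A
  rw [injective_iff_map_eq_zero]
  intro y hy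
  induction y using H2_induction_on with | h fb =>
  rw [H2π_comp_map_apply] at hy
  obtain ⟨x, hx⟩ := (H2π_eq_zero_iff _).1 hy
  set f : G × G → A.V := fun p => ((fb : _ → _) ((p.1 : G ⧸ S), (p.2 : G ⧸ S))).1 with hf
  have hfx : f = ir_d x := by
    funext p
    exact (congrFun hx p).symm
  have hfc : IsCocycle₂ f := by
    rw [hfx]; exact ir_isCocycle₂_d x
  have hinv : ∀ (g h s t : G), s ∈ S → t ∈ S → f (g * s, h * t) = f (g, h) := by
    intro g h s t hs ht
    simp only [hf, QuotientGroup.mk_mul_of_mem _ hs, QuotientGroup.mk_mul_of_mem _ ht]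
  have hval : ∀ (g h s : G), s ∈ S → s • f (g, h) = f (g, h) := by
    intro g h s hs
    exact ((fb : _ → _) ((g : G ⧸ S), (h : G ⧸ S))).2 ⟨s, hs⟩
  obtain ⟨z, hz, hz1, hz2⟩ := ir_inflated_coboundary S (ir_H1Vanish_of_subsingleton A S h1) f hfc
    hinv hval x hfx
  let zbar : G ⧸ S → (A.quotientToInvariants S).V := fun q =>
    Quotient.liftOn' q (fun g => (⟨z g, fun s => hz2 g s s.2⟩ : (A.quotientToInvariants S).V))
      (fun g₁ g₂ hg => Subtype.ext (by
        rw [QuotientGroup.leftRel_apply] at hg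
        have := hz1 g₁ _ hg
        rw [mul_inv_cancel_left] at this
        exact this.symm))
  refine (H2π_eq_zero_iff _).2 ⟨zbar, ?_⟩
  funext p
  obtain ⟨g, h⟩ := p
  induction g using QuotientGroup.induction_on with | H g =>
  induction h using QuotientGroup.induction_on with | H h =>
  apply Subtype.ext
  have := congrFun hz (g, h)
  exact this.symm

/-- Restriction after inflation vanishes in degree 2. -/
lemma ir_inf_comp_res : ir_inf₂ A S ≫ ir_res₂ A S = 0 := by
  rw [← cancel_epi (H2π (A.quotientToInvariants S))]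
  ext fb
  simp only [ModuleCat.hom_comp, LinearMap.coe_comp, Function.comp_apply, Limits.comp_zero,
    ModuleCat.hom_zero, LinearMap.zero_apply]
  erw [H2π_comp_map_apply, H2π_comp_map_apply]
  refine (H2π_eq_zero_iff _).2 ⟨fun _ => ((fb : _ → _) (1, 1)).1, ?_⟩
  funext p
  obtain ⟨s, t⟩ := p
  have hs : ((s : G) : G ⧸ S) = 1 := (QuotientGroup.eq_one_iff _).2 s.2
  have ht : ((t : G) : G ⧸ S) = 1 := (QuotientGroup.eq_one_iff _).2 t.2
  have h3 := ((fb : _ → _) (1, 1)).2 s
  change A.ρ (s : G) ((fb : _ → _) (1, 1)).1 - ((fb : _ → _) (1, 1)).1 + ((fb : _ → _) (1, 1)).1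
    = ((fb : _ → _) (((s : G) : G ⧸ S), ((t : G) : G ⧸ S))).1
  rw [hs, ht]
  rw [sub_add_cancel]
  exact h3

/-- The short complex `H²(G ⧸ S, A^S) ⟶ H²(G, A) ⟶ H²(S, A)`. -/
noncomputable def ir_H2InfRes : ShortComplex (ModuleCat k) :=
  ShortComplex.mk (ir_inf₂ A S) (ir_res₂ A S) (ir_inf_comp_res A S)

lemma ir_H2InfRes_mono (h1 : Subsingleton (groupCohomology (Rep.res S.subtype A) 1)) :
    Mono (ir_H2InfRes A S).f :=
  (ModuleCat.mono_iff_injective _).2 (ir_H2InfRes_injective A S h1)

/-- **Inflation–restriction in degree 2**: if `H¹(S, A) = 0` then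
`H²(G ⧸ S, A^S) ⟶ H²(G, A) ⟶ H²(S, A)` is exact. -/
theorem ir_H2InfRes_exact (h1 : Subsingleton (groupCohomology (Rep.res S.subtype A) 1)) :
    (ir_H2InfRes A S).Exact := by
  rw [ShortComplex.moduleCat_exact_iff_ker_sub_range]
  intro x hx
  obtain ⟨y, hy⟩ := ir_H2InfRes_exact' A S h1 x hx
  exact ⟨y, hy⟩

/-- The shape used by the devissage files: both halves at once, with the maps written out. -/
theorem ir_H2InfRes_both (h1 : Subsingleton (groupCohomology (Rep.res S.subtype A) 1)) :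
    Function.Injective
        (map (A := A.quotientToInvariants S) (B := A) (QuotientGroup.mk' S)
          (ofHom <| A.ρ.quotientToInvariants_lift S) 2).hom ∧
      ∀ x : groupCohomology A 2,
        (map (A := A) (B := Rep.res S.subtype A) S.subtype (𝟙 _) 2).hom x = 0 →
        ∃ y : groupCohomology (A.quotientToInvariants S) 2,
          (map (A := A.quotientToInvariants S) (B := A) (QuotientGroup.mk' S)
            (ofHom <| A.ρ.quotientToInvariants_lift S) 2).hom y = x :=
  ⟨ir_H2InfRes_injective A S h1, ir_H2InfRes_exact' A S h1⟩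

/-- `IsZero` form of the hypothesis. -/
theorem ir_H2InfRes_exact_of_isZero
    (h1 : Limits.IsZero (groupCohomology (Rep.res S.subtype A) 1)) :
    (ir_H2InfRes A S).Exact ∧ Mono (ir_H2InfRes A S).f :=
  have h : Subsingleton (groupCohomology (Rep.res S.subtype A) 1) :=
    ModuleCat.subsingleton_of_isZero h1
  ⟨ir_H2InfRes_exact A S h, ir_H2InfRes_mono A S h⟩

end RepLevel

end Fermat.Agent.S55
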