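/-
S55 degree-2 toolbox (helper23), Mathlib only.
`res z = 0` on a finite-index subgroup `S` implies `S.index • z = 0` in `H²(G, A)`, by an
explicit cocycle computation (no corestriction).  Consequences: `|G|` kills `H²`, classes are
detected on Sylow subgroups, `p`-primary classes are detected on one Sylow `p`-subgroup.
-/
import Mathlib

open CategoryTheory groupCohomology Rep

namespace Fermat.Agent.S55

universe u

section Functions

variable {k G V : Type*} [CommRing k] [Group G] [AddCommGroup V] [Module k V]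
  (ρ : Representation k G V)

/-- The 2-cocycle identity for a function `G × G → V` (explicit form). -/
def h2_IsZ2 (f : G × G → V) : Prop :=
  ∀ g h j : G, f (g * h, j) + f (g, h) = ρ g (f (h, j)) + f (g, h * j)

/-- The coboundary of a 1-cochain (explicit form). -/
def h2_d1 (b : G → V) : G × G → V := fun p => ρ p.1 (b p.2) - b (p.1 * p.2) + b p.1

theorem h2_d1_isZ2 (b : G → V) : h2_IsZ2 ρ (h2_d1 ρ b) := by
  intro g h j
  simp only [h2_d1, map_add, map_sub, map_mul, Module.End.mul_apply, mul_assoc]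
  abel

theorem h2_IsZ2.add {f f' : G × G → V} (hf : h2_IsZ2 ρ f) (hf' : h2_IsZ2 ρ f') :
    h2_IsZ2 ρ (f + f') := by
  intro g h j
  have h1 := hf g h j
  have h2 := hf' g h j
  simp only [Pi.add_apply, map_add]
  rw [add_add_add_comm, h1, h2, add_add_add_comm]

theorem h2_IsZ2.sub {f f' : G × G → V} (hf : h2_IsZ2 ρ f) (hf' : h2_IsZ2 ρ f') :
    h2_IsZ2 ρ (f - f') := by
  intro g h j
  have h1 := hf g h j
  have h2 := hf' g h j
  simp only [Pi.sub_apply, map_sub]
  rw [← add_sub_add_comm, h1, h2, add_sub_add_comm]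

variable {ρ}

/-- Key computation: a 2-cocycle vanishing on `G × S` satisfies `index • f = d b`. -/
theorem h2_index_smul_of_vanish (S : Subgroup G) [Fintype (G ⧸ S)] {f : G × G → V}
    (hf : h2_IsZ2 ρ f) (hS : ∀ (x : G) (s : G), s ∈ S → f (x, s) = 0) :
    ∃ b : G → V, ∀ g h : G, Fintype.card (G ⧸ S) • f (g, h) = h2_d1 ρ b (g, h) := by
  classical
  -- `f (g, t * p) = f (g, t)` for `p ∈ S`
  have hinv : ∀ (g t p : G), p ∈ S → f (g, t * p) = f (g, t) := by
    intro g t p hp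
    have := hf g t p
    rw [hS (g * t) p hp, hS t p hp, map_zero, zero_add, zero_add] at this
    exact this.symm
  -- `f (g, x) = f (g, (mk x).out)`
  have hout : ∀ (g x : G), f (g, (QuotientGroup.mk x : G ⧸ S).out) = f (g, x) := by
    intro g x
    have hx : x⁻¹ * (QuotientGroup.mk x : G ⧸ S).out ∈ S := by
      rw [← QuotientGroup.eq]
      exact (QuotientGroup.out_eq' _).symm
    have := hinv g x _ hx
    rwa [mul_inv_cancel_left] at this
  refine ⟨fun h => ∑ q : G ⧸ S, f (h, q.out), fun g h => ?_⟩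
  simp only [h2_d1]
  have hsum : ∑ q : G ⧸ S, f (g, h * q.out) = ∑ q : G ⧸ S, f (g, q.out) := by
    rw [← Equiv.sum_comp (MulAction.toPerm h : Equiv.Perm (G ⧸ S)) (fun q => f (g, q.out))]
    refine Finset.sum_congr rfl fun q _ => ?_
    have : (MulAction.toPerm h : Equiv.Perm (G ⧸ S)) q = QuotientGroup.mk (h * q.out) := by
      rw [MulAction.toPerm_apply]
      conv_lhs => rw [← QuotientGroup.out_eq' q]
      rfl
    rw [this, hout]
  have key : ∑ q : G ⧸ S, (f (g * h, q.out) + f (g, h)) =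
      ∑ q : G ⧸ S, (ρ g (f (h, q.out)) + f (g, h * q.out)) :=
    Finset.sum_congr rfl fun q _ => hf g h q.out
  rw [Finset.sum_add_distrib, Finset.sum_add_distrib, Finset.sum_const, Finset.card_univ,
    hsum, ← map_sum] at key
  rw [eq_sub_of_add_eq' key]
  abel

theorem h2_d1_add (b b' : G → V) : h2_d1 ρ (b + b') = h2_d1 ρ b + h2_d1 ρ b' := by
  funext p
  simp only [h2_d1, Pi.add_apply, map_add]
  abel

theorem h2_d1_sub (b b' : G → V) : h2_d1 ρ (b - b') = h2_d1 ρ b - h2_d1 ρ b' := by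
  funext p
  simp only [h2_d1, Pi.sub_apply, map_sub]
  abel

theorem h2_d1_nsmul (n : ℕ) (b : G → V) : h2_d1 ρ (n • b) = n • h2_d1 ρ b := by
  funext p
  simp only [h2_d1, Pi.smul_apply, map_nsmul, smul_add, smul_sub]

/-- Normalisation: a 2-cocycle vanishing on `S × S` is cohomologous to one vanishing on
`G × S`. -/
theorem h2_normalize_of_vanish (S : Subgroup G) {f : G × G → V} (hf : h2_IsZ2 ρ f)
    (hS : ∀ s s' : G, s ∈ S → s' ∈ S → f (s, s') = 0) :
    ∃ c : G → V, ∀ (x p : G), p ∈ S → (f + h2_d1 ρ c) (x, p) = 0 := by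
  classical
  let t : G → G := fun g => (QuotientGroup.mk g : G ⧸ S).out
  have ht : ∀ g, (t g)⁻¹ * g ∈ S := by
    intro g
    rw [← QuotientGroup.eq]
    exact QuotientGroup.out_eq' _
  have htmul : ∀ g p, p ∈ S → t (g * p) = t g := by
    intro g p hp
    have : (QuotientGroup.mk (g * p) : G ⧸ S) = QuotientGroup.mk g := by
      rw [QuotientGroup.eq]
      simpa using S.inv_mem hp
    simp only [t, this]
  refine ⟨fun g => f (t g, (t g)⁻¹ * g), fun x p hp => ?_⟩
  have htp : t p ∈ S := by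
    have h1 := ht p
    have : t p = p * ((t p)⁻¹ * p)⁻¹ := by group
    rw [this]
    exact S.mul_mem hp (S.inv_mem h1)
  have hcp : f (t p, (t p)⁻¹ * p) = 0 := hS _ _ htp (ht p)
  have hco := hf (t x) ((t x)⁻¹ * x) p
  rw [mul_inv_cancel_left, hS _ _ (ht x) hp, map_zero, zero_add] at hco
  simp only [Pi.add_apply, h2_d1, htmul x p hp, hcp, map_zero]
  rw [← mul_assoc, ← hco]
  abel

/-- A 2-cocycle whose restriction to `S` is a coboundary is cohomologous to one vanishing on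
`G × S`. -/
theorem h2_normalize (S : Subgroup G) {f : G × G → V} (hf : h2_IsZ2 ρ f)
    (hS : ∃ b₀ : S → V, ∀ s s' : S,
      f ((s : G), (s' : G)) = ρ (s : G) (b₀ s') - b₀ (s * s') + b₀ s) :
    ∃ c : G → V, ∀ (x p : G), p ∈ S → (f + h2_d1 ρ c) (x, p) = 0 := by
  classical
  obtain ⟨b₀, hb₀⟩ := hS
  let b₁ : G → V := fun g => if h : g ∈ S then b₀ ⟨g, h⟩ else 0
  have hb₁ : ∀ s : S, b₁ (s : G) = b₀ s := fun s => by simp [b₁]
  have hf₁ : h2_IsZ2 ρ (f - h2_d1 ρ b₁) := hf.sub ρ (h2_d1_isZ2 ρ b₁)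
  obtain ⟨c₁, hc₁⟩ := h2_normalize_of_vanish S hf₁ (fun s s' hs hs' => by
    have h1 := hb₀ ⟨s, hs⟩ ⟨s', hs'⟩
    have h2 : b₁ (s * s') = b₀ (⟨s, hs⟩ * ⟨s', hs'⟩) := hb₁ (⟨s, hs⟩ * ⟨s', hs'⟩)
    have h3 := hb₁ ⟨s, hs⟩
    have h4 := hb₁ ⟨s', hs'⟩
    simp only [Pi.sub_apply, h2_d1] at h1 h3 h4 ⊢
    rw [h2, h3, h4, ← h1, sub_self])
  refine ⟨c₁ - b₁, fun x p hp => ?_⟩
  have := hc₁ x p hp
  rw [h2_d1_sub]
  rw [← this]
  simp only [Pi.add_apply, Pi.sub_apply]
  abel

/-- Function-level main statement: if the restriction of a 2-cocycle `f` to a subgroup `S` of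
finite index is a coboundary then `[G : S] • f` is a coboundary. -/
theorem h2_index_smul_isCoboundary (S : Subgroup G) [Fintype (G ⧸ S)] {f : G × G → V}
    (hf : h2_IsZ2 ρ f)
    (hS : ∃ b₀ : S → V, ∀ s s' : S,
      f ((s : G), (s' : G)) = ρ (s : G) (b₀ s') - b₀ (s * s') + b₀ s) :
    ∃ b : G → V, Fintype.card (G ⧸ S) • f = h2_d1 ρ b := by
  obtain ⟨c, hc⟩ := h2_normalize S hf hS
  have hf₂ : h2_IsZ2 ρ (f + h2_d1 ρ c) := hf.add ρ (h2_d1_isZ2 ρ c)
  obtain ⟨b, hb⟩ := h2_index_smul_of_vanish S hf₂ hc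
  refine ⟨b - Fintype.card (G ⧸ S) • c, ?_⟩
  rw [h2_d1_sub, h2_d1_nsmul]
  funext p
  have := hb p.1 p.2
  simp only [Pi.add_apply, smul_add, Pi.smul_apply, Pi.sub_apply] at this ⊢
  rw [← this]
  abel

end Functions

section RepLevel

variable {k G : Type u} [CommRing k] [Group G] (A : Rep k G)

theorem h2_isZ2_of_cocycle (x : cocycles₂ A) : h2_IsZ2 A.ρ (x : G × G → A) :=
  (mem_cocycles₂_iff _).1 x.2

theorem h2_d1_eq_d₁₂ (b : G → A) : h2_d1 A.ρ b = (d₁₂ A).hom b := rfl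

theorem h2_mem_coboundaries₂_iff (f : G × G → A) :
    f ∈ coboundaries₂ A ↔ ∃ b : G → A, f = h2_d1 A.ρ b := by
  constructor
  · rintro ⟨b, hb⟩
    exact ⟨b, hb.symm⟩
  · rintro ⟨b, hb⟩
    exact ⟨b, hb.symm⟩

/-- If the restriction of `z ∈ H²(G, A)` to a subgroup `S` of finite index vanishes, then
`[G : S] • z = 0`.  (Explicit cocycle proof, no corestriction.) -/
theorem h2_index_smul_eq_zero_of_res_eq_zero (S : Subgroup G) [S.FiniteIndex] (z : H2 A)
    (hz : map S.subtype (𝟙 (res S.subtype A)) 2 z = 0) : S.index • z = 0 := by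
  classical
  induction z using H2_induction_on with | h x => ?_
  have : Fintype (G ⧸ S) := Fintype.ofFinite _
  rw [H2π_comp_map_apply, H2π_eq_zero_iff, h2_mem_coboundaries₂_iff] at hz
  obtain ⟨b₀, hb₀⟩ := hz
  have hS : ∃ b₀ : S → A, ∀ s s' : S,
      (x : G × G → A) ((s : G), (s' : G)) = A.ρ (s : G) (b₀ s') - b₀ (s * s') + b₀ s := by
    refine ⟨b₀, fun s s' => ?_⟩
    have := congr_fun hb₀ (s, s')
    rw [coe_mapCocycles₂] at this
    simpa [h2_d1] using this
  obtain ⟨b, hb⟩ := h2_index_smul_isCoboundary S (h2_isZ2_of_cocycle A x) hS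
  rw [← map_nsmul, H2π_eq_zero_iff, h2_mem_coboundaries₂_iff]
  refine ⟨b, ?_⟩
  rw [← hb, Subgroup.index_eq_card, Nat.card_eq_fintype_card]
  rfl

/-- `|G|` kills `H²(G, A)` for a finite group `G`. -/
theorem h2_card_smul_eq_zero [Finite G] (z : H2 A) : Nat.card G • z = 0 := by
  classical
  induction z using H2_induction_on with | h x => ?_
  have : Fintype (G ⧸ (⊥ : Subgroup G)) := Fintype.ofFinite _
  have hS : ∃ b₀ : (⊥ : Subgroup G) → A, ∀ s s' : (⊥ : Subgroup G),
      (x : G × G → A) ((s : G), (s' : G)) = A.ρ (s : G) (b₀ s') - b₀ (s * s') + b₀ s := by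
    refine ⟨fun _ => (x : G × G → A) (1, 1), fun s s' => ?_⟩
    have h1 : (s : G) = 1 := Subgroup.mem_bot.1 s.2
    have h2 : (s' : G) = 1 := Subgroup.mem_bot.1 s'.2
    simp [h1, h2]
  obtain ⟨b, hb⟩ := h2_index_smul_isCoboundary ⊥ (h2_isZ2_of_cocycle A x) hS
  rw [← map_nsmul, H2π_eq_zero_iff, h2_mem_coboundaries₂_iff]
  refine ⟨b, ?_⟩
  rw [← hb, ← Subgroup.index_bot, Subgroup.index_eq_card, Nat.card_eq_fintype_card]
  rfl

/-- Sylow detection in degree 2: a class of `H²(G, A)` (`G` finite) which dies on every Sylow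
subgroup is zero. -/
theorem h2_eq_zero_of_forall_sylow [Finite G] (z : H2 A)
    (h : ∀ (l : ℕ) [Fact l.Prime] (P : Sylow l G),
      map (P : Subgroup G).subtype (𝟙 (res (P : Subgroup G).subtype A)) 2 z = 0) : z = 0 := by
  have hcard : Nat.card G • z = 0 := h2_card_smul_eq_zero A z
  have hpos : 0 < Nat.card G := Nat.card_pos
  have hfin : 0 < addOrderOf z :=
    addOrderOf_pos_iff.2 (isOfFinAddOrder_iff_nsmul_eq_zero.2 ⟨_, hpos, hcard⟩)
  by_contra hz
  have hne : addOrderOf z ≠ 1 := fun h1 => hz (AddMonoid.addOrderOf_eq_one_iff.1 h1)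
  obtain ⟨l, hl, hdvd⟩ := Nat.exists_prime_and_dvd hne
  have : Fact l.Prime := ⟨hl⟩
  obtain P : Sylow l G := default
  have h1 := h2_index_smul_eq_zero_of_res_eq_zero A (P : Subgroup G) z (h l P)
  have h2 : addOrderOf z ∣ (P : Subgroup G).index := addOrderOf_dvd_of_nsmul_eq_zero h1
  exact P.not_dvd_index (hdvd.trans h2)

/-- `p`-primary classes are detected on a Sylow `p`-subgroup (degree 2, no corestriction). -/
theorem h2_eq_zero_of_res_sylow_eq_zero [Finite G] (p : ℕ) [Fact p.Prime] (P : Sylow p G)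
    (z : H2 A) (hz : ∃ k : ℕ, p ^ k • z = 0)
    (h : map (P : Subgroup G).subtype (𝟙 (res (P : Subgroup G).subtype A)) 2 z = 0) : z = 0 := by
  obtain ⟨k, hk⟩ := hz
  have h1 := h2_index_smul_eq_zero_of_res_eq_zero A (P : Subgroup G) z h
  have hcop : Nat.Coprime (p ^ k) (P : Subgroup G).index :=
    Nat.Coprime.pow_left k ((Nat.Prime.coprime_iff_not_dvd Fact.out).2 P.not_dvd_index)
  have h2 : addOrderOf z ∣ Nat.gcd (p ^ k) (P : Subgroup G).index :=
    Nat.dvd_gcd (addOrderOf_dvd_of_nsmul_eq_zero hk) (addOrderOf_dvd_of_nsmul_eq_zero h1)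
  rw [hcop.gcd_eq_one, Nat.dvd_one] at h2
  exact AddMonoid.addOrderOf_eq_one_iff.1 h2

/-- Injectivity form: two classes whose difference is `p`-primary and which agree on a Sylow
`p`-subgroup are equal. -/
theorem h2_res_sylow_injOn [Finite G] (p : ℕ) [Fact p.Prime] (P : Sylow p G)
    (z z' : H2 A) (hz : ∃ k : ℕ, p ^ k • (z - z') = 0)
    (h : map (P : Subgroup G).subtype (𝟙 (res (P : Subgroup G).subtype A)) 2 z =
      map (P : Subgroup G).subtype (𝟙 (res (P : Subgroup G).subtype A)) 2 z') : z = z' := by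
  rw [← sub_eq_zero]
  refine h2_eq_zero_of_res_sylow_eq_zero A p P _ hz ?_
  rw [map_sub, h, sub_self]

end RepLevel

end Fermat.Agent.S55
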