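/-
S55 (helper23): the cyclic-layer hypothesis `dv_CyclicLayers` from inflation data.
To verify `dv_CyclicLayers p C` for a `Γ`-module `C` it suffices to exhibit, for every layer
`N ⊴ H ≤ Γ` of index `p`, a group `Q`, a `Q`-module `B` and an inflation datum
`(π : H →* Q, φ : Res(π) B ⟶ Res(H) C)` (`lc_IsInfl`: `π` onto, `φ` injective with image the
`ker π`-invariants) with `ker π = N`, such that `H¹(Q, B) = 0` and `|H²(Q, B)|` divides `p`.
Typical use: `C` = units / idele classes of a big Galois extension, `B` = the same object for the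
intermediate field `F' = (top)^N` with its `Gal(F'/E')`-action.  Prefix `li_`.
-/
import Mathlib
import Fermat.Agent.S55.LocalCF.InfPi
import Fermat.Agent.S55.Devissage.PLayers

set_option autoImplicit false

noncomputable section

namespace Fermat.Agent.S55

open CategoryTheory groupCohomology

universe u

variable {k Γ : Type u} [CommRing k] [Group Γ]

/-- Cohomology of a layer computed through an inflation datum. -/
theorem li_layer_of_infl (C : Rep k Γ) (H : Subgroup Γ) {Q : Type u} [Group Q] (B : Rep k Q)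
    (π : ↥H →* Q) (φ : Rep.res π B ⟶ Rep.res H.subtype C) (hπ : lc_IsInfl π φ) (n : ℕ) :
    Nonempty (groupCohomology B n ≃ₗ[k]
      groupCohomology ((Rep.res H.subtype C).quotientToInvariants π.ker) n) :=
  ⟨(lc_inflIso hπ n).toLinearEquiv⟩

/-- **Cyclic layers from inflation data.** -/
theorem li_cyclicLayers (p : ℕ) (C : Rep k Γ)
    (h : ∀ (H : Subgroup Γ) (N : Subgroup ↥H) [N.Normal], N.index = p →
      ∃ (Q : Type u) (_ : Group Q) (B : Rep k Q) (π : ↥H →* Q)
        (φ : Rep.res π B ⟶ Rep.res H.subtype C),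
        lc_IsInfl π φ ∧ π.ker = N ∧ Subsingleton (H1 B) ∧ Finite (H2 B) ∧ Nat.card (H2 B) ∣ p) :
    dv_CyclicLayers p C := by
  intro H N hN hidx
  obtain ⟨Q, _, B, π, φ, hπ, hker, h1, h2, h3⟩ := h H N hidx
  subst hker
  have e1 := (lc_inflIso hπ 1).toLinearEquiv.toEquiv
  have e2 := (lc_inflIso hπ 2).toLinearEquiv.toEquiv
  refine ⟨e1.subsingleton_congr.mp h1, (Equiv.finite_iff e2).mp h2, ?_⟩
  rw [← Nat.card_congr e2]
  exact h3

end Fermat.Agent.S55
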