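import Fermat.Agent.S55.FinGrp.Shift
import Fermat.Agent.S55.Tate.LowDegree

set_option autoImplicit false

/-!
# Sylow reduction for Tate cohomology in all degrees, without corestriction (S55, block (A1))

* `fg_index_smul_eq_zero`: if `Ĥ^n(H, A) = 0` for a subgroup `H` then the index of `H` kills
  `Ĥ^n(G, A)` (degree `0` by hand, all other degrees by dimension shifting).
* `fg_card_smul_eq_zero`: `|G|` kills `Ĥ^n(G, A)`.
* `fg_eq_zero_of_sylow`: no `p`-primary torsion in `Ĥ^n(G, A)` if `Ĥ^n(P, A) = 0` for a Sylow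
  `p`-subgroup `P`.
* `fg_isZero_tate_of_sylow`: `Ĥ^n(G, A) = 0` if `Ĥ^n(P, A) = 0` for all Sylow subgroups.
-/

universe u

open CategoryTheory

namespace Fermat.Agent.S55

noncomputable section

variable {R G : Type u} [CommRing R] [Group G] [Fintype G]

/-- If `a` is `G`-invariant and `a = N_H c` for a finite group `H` injecting into `G` with
`m * |H| = |G|`, then `N_G c = m • a`. -/
lemma fg_norm_eq_index_smul {H : Type u} [Group H] [Fintype H] (f : H →* G)
    (hf : Function.Injective f) (A : Rep R G) (m : ℕ)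
    (hm : m * Fintype.card H = Fintype.card G) (a c : A.V) (ha : ∀ g, A.ρ g a = a)
    (hc : ∑ h : H, A.ρ (f h) c = a) : ∑ g : G, A.ρ g c = m • a := by
  classical
  obtain ⟨T, hT, -⟩ := Subgroup.exists_isComplement_left f.range 1
  let e : T × f.range ≃ G := Equiv.ofBijective _ hT
  let e' : H ≃ f.range := (MonoidHom.ofInjective hf).toEquiv
  have h1 : ∑ g : G, A.ρ g c = ∑ x : T × f.range, A.ρ (x.1.1 * x.2.1) c :=
    (Fintype.sum_equiv e _ _ fun x => rfl).symm
  rw [h1, Fintype.sum_prod_type]
  have h2 : ∀ t : T, ∑ r : f.range, A.ρ (t.1 * r.1) c = a := by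
    intro t
    have : ∑ r : f.range, A.ρ (t.1 * r.1) c = ∑ h : H, A.ρ t.1 (A.ρ (f h) c) := by
      refine (Fintype.sum_equiv e' _ _ fun h => ?_).symm
      show A.ρ t.1 (A.ρ (f h) c) = A.ρ (t.1 * f h) c
      rw [map_mul]; rfl
    rw [this, ← map_sum, hc, ha]
  rw [Finset.sum_congr rfl fun t _ => h2 t, Finset.sum_const, Finset.card_univ]
  congr 1
  have h3 : Fintype.card T * Fintype.card f.range = Fintype.card G := by
    rw [← Fintype.card_prod]; exact Fintype.card_congr e
  have h4 : Fintype.card f.range = Fintype.card H := (Fintype.card_congr e').symm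
  rw [h4, ← hm] at h3
  exact Nat.eq_of_mul_eq_mul_right Fintype.card_pos h3



/-- Degree `0` of `fg_index_smul_eq_zero`. -/
lemma fg_index_smul_eq_zero_zero {H : Type u} [Group H] [Fintype H] (f : H →* G)
    (hf : Function.Injective f) (A : Rep R G) (m : ℕ)
    (hm : m * Fintype.card H = Fintype.card G)
    (hz : Limits.IsZero (tateCohomology (Rep.res f A) 0)) (x : tateCohomology A 0) :
    m • x = 0 := by
  change (tateComplex A).homology 0 at x
  show m • x = 0
  obtain ⟨a, rfl⟩ := tt_cl0_surjective A x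
  have ha' : (a : A.V) ∈ (Rep.res f A).ρ.invariants := fun h => a.2 (f h)
  have h0 : tt_cl0 (Rep.res f A) ⟨a.1, ha'⟩ = 0 := by
    have hsub : Subsingleton (tateCohomology (Rep.res f A) 0) :=
      (ModuleCat.isZero_iff_subsingleton.1 hz)
    exact @Subsingleton.elim _ hsub _ _
  obtain ⟨c, hc⟩ := (tt_cl0_eq_zero_iff _ _).1 h0
  have hc' : ∑ h : H, A.ρ (f h) c = a.1 := by
    have := hc
    simp only [Representation.norm, LinearMap.sum_apply] at this
    exact this
  have key := fg_norm_eq_index_smul f hf A m hm a.1 c a.2 hc'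
  rw [← map_nsmul, tt_cl0_eq_zero_iff]
  refine ⟨c, ?_⟩
  simp only [Representation.norm, LinearMap.sum_apply]
  rw [key]; rfl



/-- The property transported by dimension shifting. -/
def fg_IndexKills {H : Type u} [Group H] [Fintype H] (f : H →* G) (m : ℕ) (n : ℤ) : Prop :=
  ∀ A : Rep R G, Limits.IsZero (tateCohomology (Rep.res f A) n) →
    ∀ x : tateCohomology A n, m • x = 0

lemma fg_indexKills_succ {H : Type u} [Group H] [Fintype H] (f : H →* G)
    (hf : Function.Injective f) (m : ℕ) (n : ℤ) (h : fg_IndexKills (R := R) f m n) :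
    fg_IndexKills (R := R) f m (n + 1) := by
  intro A hz x
  have hz' : Limits.IsZero (tateCohomology (Rep.res f (fg_up A)) n) :=
    hz.of_iso (fg_upIso f hf A n)
  let e : tateCohomology (fg_up A) n ≅ tateCohomology A (n + 1) :=
    fg_upIso (MonoidHom.id G) (fun _ _ h => h) A n
  have hx : x = e.hom.hom (e.inv.hom x) := by
    rw [← ModuleCat.comp_apply, e.inv_hom_id, ModuleCat.id_apply]
  rw [hx, ← map_nsmul, h (fg_up A) hz' (e.inv.hom x), map_zero]

lemma fg_indexKills_pred {H : Type u} [Group H] [Fintype H] (f : H →* G)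
    (hf : Function.Injective f) (m : ℕ) (n : ℤ) (h : fg_IndexKills (R := R) f m (n + 1)) :
    fg_IndexKills (R := R) f m n := by
  intro A hz x
  have hz' : Limits.IsZero (tateCohomology (Rep.res f (fg_down A)) (n + 1)) :=
    hz.of_iso (fg_downIso f hf A n).symm
  let e : tateCohomology A n ≅ tateCohomology (fg_down A) (n + 1) :=
    fg_downIso (MonoidHom.id G) (fun _ _ h => h) A n
  have hx : x = e.inv.hom (e.hom.hom x) := by
    rw [← ModuleCat.comp_apply, e.hom_inv_id, ModuleCat.id_apply]
  rw [hx, ← map_nsmul, h (fg_down A) hz' (e.hom.hom x), map_zero]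

/-- **Index kills cohomology when the subgroup has none.**  If `Ĥ^n(H, A) = 0` for a finite group
`H` injecting into `G` with `m * |H| = |G|`, then `m • x = 0` for all `x ∈ Ĥ^n(G, A)`. -/
theorem fg_index_smul_eq_zero {H : Type u} [Group H] [Fintype H] (f : H →* G)
    (hf : Function.Injective f) (m : ℕ) (hm : m * Fintype.card H = Fintype.card G) (n : ℤ)
    (A : Rep R G) (hz : Limits.IsZero (tateCohomology (Rep.res f A) n))
    (x : tateCohomology A n) : m • x = 0 := by
  have key : ∀ n : ℤ, fg_IndexKills (R := R) f m n := by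
    intro n
    induction n using Int.induction_on with
    | zero => exact fun A hz x => fg_index_smul_eq_zero_zero f hf A m hm hz x
    | succ i ih => exact fg_indexKills_succ f hf m i ih
    | pred i ih =>
      apply fg_indexKills_pred f hf m
      have : (-(i : ℤ) - 1 + 1) = -i := by ring
      rw [this]; exact ih
  exact key n A hz x



/-- Tate cohomology of the trivial group vanishes. -/
lemma fg_isZero_tate_of_subsingleton {H : Type u} [Group H] [Fintype H] [Subsingleton H]
    (B : Rep R H) (n : ℤ) : Limits.IsZero (tateCohomology B n) := by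
  refine fg_isZero_tate_of_trace B LinearMap.id (fun a => ?_) n
  have : (Finset.univ : Finset H) = {1} := by
    ext h; simp [Subsingleton.elim h 1]
  rw [this, Finset.sum_singleton]
  simp

/-- `|G|` kills Tate cohomology. -/
theorem fg_card_smul_eq_zero (A : Rep R G) (n : ℤ) (x : tateCohomology A n) :
    Fintype.card G • x = 0 :=
  fg_index_smul_eq_zero (1 : PUnit.{u + 1} →* G) (fun _ _ _ => Subsingleton.elim _ _)
    (Fintype.card G) (by simp) n A (fg_isZero_tate_of_subsingleton _ n) x

/-- Subgroup version of `fg_index_smul_eq_zero`. -/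
theorem fg_index_smul_eq_zero' (H : Subgroup G) [Fintype H] (n : ℤ) (A : Rep R G)
    (hz : Limits.IsZero (tateCohomology (Rep.res H.subtype A) n)) (x : tateCohomology A n) :
    H.index • x = 0 := by
  refine fg_index_smul_eq_zero H.subtype Subtype.val_injective H.index ?_ n A hz x
  rw [mul_comm, ← Nat.card_eq_fintype_card, ← Nat.card_eq_fintype_card, H.card_mul_index]

/-- If `Ĥ^n(H, A) = 0` and `d • x = 0` with `d` coprime to the index of `H`, then `x = 0`. -/
theorem fg_eq_zero_of_coprime_index (H : Subgroup G) [Fintype H] (n : ℤ) (A : Rep R G)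
    (hz : Limits.IsZero (tateCohomology (Rep.res H.subtype A) n)) (x : tateCohomology A n)
    (d : ℕ) (hd : d • x = 0) (hcop : Nat.Coprime H.index d) : x = 0 := by
  have h1 := addOrderOf_dvd_of_nsmul_eq_zero (fg_index_smul_eq_zero' H n A hz x)
  have h2 := addOrderOf_dvd_of_nsmul_eq_zero hd
  have h3 : addOrderOf x ∣ 1 := by
    rw [← Nat.Coprime.gcd_eq_one hcop]; exact Nat.dvd_gcd h1 h2
  exact AddMonoid.addOrderOf_eq_one_iff.1 (Nat.dvd_one.1 h3)

/-- Injectivity on `p`-primary parts: if `Ĥ^n(P, A) = 0` for a Sylow `p`-subgroup `P`, then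
`Ĥ^n(G, A)` has no `p`-primary torsion. -/
theorem fg_eq_zero_of_sylow {p : ℕ} [Fact p.Prime] (P : Sylow p G) [Fintype P] (n : ℤ)
    (A : Rep R G) (hz : Limits.IsZero (tateCohomology (Rep.res (P : Subgroup G).subtype A) n))
    (x : tateCohomology A n) (k : ℕ) (hx : p ^ k • x = 0) : x = 0 := by
  refine fg_eq_zero_of_coprime_index (P : Subgroup G) n A hz x (p ^ k) hx ?_
  exact (Nat.Coprime.pow_right k
    ((Nat.Prime.coprime_iff_not_dvd Fact.out).2 P.not_dvd_index).symm)

/-- **Sylow criterion for vanishing.**  If `Ĥ^n(P, A) = 0` for all Sylow subgroups `P` of `G`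
(all primes), then `Ĥ^n(G, A) = 0`.  No corestriction is used. -/
theorem fg_isZero_tate_of_sylow (A : Rep R G) (n : ℤ)
    (h : ∀ (p : ℕ) [Fact p.Prime] (P : Sylow p G) [Fintype P],
      Limits.IsZero (tateCohomology (Rep.res (P : Subgroup G).subtype A) n)) :
    Limits.IsZero (tateCohomology A n) := by
  classical
  rw [ModuleCat.isZero_iff_subsingleton]
  refine ⟨fun x y => ?_⟩
  suffices H : ∀ z : tateCohomology A n, z = 0 by rw [H x, H y]
  intro z
  by_contra hz
  have hcard := fg_card_smul_eq_zero A n z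
  have ho : addOrderOf z ≠ 1 := fun h1 => hz (AddMonoid.addOrderOf_eq_one_iff.1 h1)
  obtain ⟨q, hq, hqo⟩ := Nat.exists_prime_and_dvd ho
  have : Fact q.Prime := ⟨hq⟩
  obtain ⟨P⟩ : Nonempty (Sylow q G) := inferInstance
  have h1 := addOrderOf_dvd_of_nsmul_eq_zero
    (fg_index_smul_eq_zero' (P : Subgroup G) n A (h q P) z)
  exact P.not_dvd_index (hqo.trans h1)


end

end Fermat.Agent.S55
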