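import Fermat.Agent.S55.FinGrp.CohTrivExact
import Fermat.Agent.S55.Tate.Hom
import Fermat.Agent.S55.Tate.PGroupFree

set_option autoImplicit false

/-!
# Cohomological triviality of `Hom(Y, A)` (S55, block (A3)(b))

Serre, Local Fields IX, Thm 5/6/8/9 in compressed form: over a finite `p`-group `G`, if
`H¹(H, A) = H²(H, A) = 0` for all subgroups `H`, then `Hom(Y, A)` is cohomologically trivial for
every lattice `Y`.
-/

universe u

open CategoryTheory

namespace Fermat.Agent.S55

noncomputable section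

section generic

variable {k G : Type u} [CommRing k] [Group G]

/-- `B` has a trace-one endomorphism. -/
def fg_TraceOne [Fintype G] (B : Rep k G) : Prop :=
  ∃ π : B.V →ₗ[k] B.V, ∀ a, ∑ g : G, B.ρ g (π (B.ρ g⁻¹ a)) = a

/-- A linear map built from an additive map commuting with scalars (stated for general `k` so that
the module instance carried by `B` is used). -/
def fg_linOfAdd (B : Rep k G) (f : B.V →+ B.V) (hf : ∀ (c : k) (x : B.V), f (c • x) = c • f x) :
    B.V →ₗ[k] B.V where
  toFun := f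
  map_add' := f.map_add
  map_smul' := hf

@[simp]
lemma fg_linOfAdd_apply (B : Rep k G) (f : B.V →+ B.V) (hf) (x : B.V) :
    fg_linOfAdd B f hf x = f x := rfl

theorem fg_TraceOne.cohTrivial [Fintype G] {B : Rep k G} (h : fg_TraceOne B) :
    fg_CohTrivial B := by
  obtain ⟨π, hπ⟩ := h
  exact fg_cohTrivial_of_trace B π hπ

end generic

/-- Over `ℤ` every additive endomorphism is linear. -/
def fg_intLin {G : Type} [Group G] (B : Rep.{0} ℤ G) (f : B.V →+ B.V) :=
  fg_linOfAdd B f (fun c x => by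
    have e1 : B.hV2.smul c x = c • x := int_smul_eq_zsmul B.hV2 c x
    have e2 : B.hV2.smul c (f x) = c • f x := int_smul_eq_zsmul B.hV2 c (f x)
    show f (B.hV2.smul c x) = B.hV2.smul c (f x)
    rw [e1, e2, map_zsmul])

lemma fg_traceOne_zmod {p : ℕ} [Fact p.Prime] {G : Type*} [Group G] [Fintype G]
    (hG : IsPGroup p G) {V : Type*} [AddCommGroup V] [Module (ZMod p) V] (r : G → V →+ V)
    (hr1 : ∀ v, r 1 v = v) (hrm : ∀ g h v, r (g * h) v = r g (r h v))
    (h1 : ∀ c : G → V, (∀ g h, c (g * h) = c g + r g (c h)) → ∃ b, ∀ g, c g = r g b - b) :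
    ∃ π : V →+ V, ∀ a, ∑ g : G, r g (π (r g⁻¹ a)) = a := by
  let ρ' : Representation (ZMod p) G V :=
    { toFun := fun g => (r g).toZModLinearMap p
      map_one' := LinearMap.ext fun v => hr1 v
      map_mul' := fun g h => LinearMap.ext fun v => hrm g h v }
  have hρ' : ∀ g b, ρ' g b = r g b := fun _ _ => rfl
  obtain ⟨π, hπ⟩ := pf_exists_traceOne hG ρ' (fun c hc => h1 c hc)
  refine ⟨π.toAddMonoidHom, fun a => ?_⟩
  have := LinearMap.congr_fun hπ a
  rw [LinearMap.sum_apply] at this
  exact this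

/-- **Serre IX Thm 5 for `Rep ℤ G`.**  Over a finite `p`-group, a representation killed by `p`
with vanishing `H¹` has a trace-one endomorphism. -/
theorem fg_traceOne_of_H1 {p : ℕ} [Fact p.Prime] {G : Type} [Group G] [Fintype G]
    (hG : IsPGroup p G) (B : Rep.{0} ℤ G) (hp : ∀ b : B.V, p • b = 0)
    (h1 : Limits.IsZero (groupCohomology B 1)) : fg_TraceOne B := by
  let _ : Module (ZMod p) B.V := AddCommGroup.zmodModule hp
  obtain ⟨π, hπ⟩ := fg_traceOne_zmod hG (fun g => (B.ρ g).toAddMonoidHom)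
    (fun v => by simp) (fun g h v => by simp) (by
    intro c hc
    have hc' : c ∈ groupCohomology.cocycles₁ B := by
      rw [groupCohomology.mem_cocycles₁_iff]
      intro g h
      rw [hc g h, add_comm]; rfl
    have hz : groupCohomology.H1π B ⟨c, hc'⟩ = 0 :=
      @Subsingleton.elim _ (ModuleCat.isZero_iff_subsingleton.1 h1) _ _
    rw [groupCohomology.H1π_eq_zero_iff] at hz
    obtain ⟨b, hb⟩ := hz
    refine ⟨b, fun g => ?_⟩
    have := congrFun hb g
    exact this.symm)
  exact ⟨fg_intLin B π, fun a => hπ a⟩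


section coind

open Classical in
/-- `Fun(G, A)` has a trace-one endomorphism. -/
theorem fg_traceOne_coind₁ {R G : Type u} [CommRing R] [Group G] [Fintype G] (A : Rep R G) :
    fg_TraceOne (fg_coind₁ A) := by
  refine ⟨fg_cut R A.V {1}, fun φ => ?_⟩
  change G → A.V at φ
  funext x
  rw [Finset.sum_apply, Finset.sum_eq_single x⁻¹]
  · show fg_cut R A.V {1} (fg_funRep R G A.V (x⁻¹)⁻¹ φ) (x * x⁻¹) = φ x
    rw [fg_cut_apply, if_pos (by simp)]
    simp
  · intro g _ hg
    show fg_cut R A.V {1} (fg_funRep R G A.V g⁻¹ φ) (x * g) = 0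
    rw [fg_cut_apply, if_neg]
    intro h
    exact hg (eq_inv_of_mul_eq_one_right (by simpa using h))
  · intro h; exact absurd (Finset.mem_univ _) h


end coind

section hom

variable {k G : Type} [CommRing k] [Group G]


/-- `Y` is projective as a `k`-module (for the module structure carried by `Y`). -/
def fg_IsProj (Y : Rep.{0} k G) : Prop := Module.Projective k Y.V

/-- `Hom(Y, -)` applied to a short complex. -/
def fg_homSC (Y : Rep.{0} k G) (S : ShortComplex (Rep.{0} k G)) : ShortComplex (Rep.{0} k G) :=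
  ShortComplex.mk (tt_homPost Y S.f) (tt_homPost Y S.g) (by
    ext f y
    show S.g.hom (S.f.hom (f y)) = 0
    have := congrArg (fun φ : S.X₁ ⟶ S.X₃ => φ.hom (f y)) S.zero
    exact this)

/-- `Hom(Y, -)` is exact on short exact sequences when `Y` is projective over `k`. -/
theorem fg_homSC_shortExact (Y : Rep.{0} k G) (hY : fg_IsProj Y) {S : ShortComplex (Rep.{0} k G)}
    (hS : S.ShortExact) : (fg_homSC Y S).ShortExact := by
  obtain ⟨h1, h2, h3⟩ := (fg_shortExact_iff S).1 hS
  rw [fg_shortExact_iff]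
  refine ⟨?_, ?_, ?_⟩
  · intro f f' hff'
    apply LinearMap.ext
    intro y
    apply h1
    exact LinearMap.congr_fun hff' y
  · intro f hf
    change Y.V →ₗ[k] S.X₂.V at f
    have hf' : ∀ y, S.g.hom (f y) = 0 := fun y => LinearMap.congr_fun hf y
    -- factor through the range of `S.f`
    let e : S.X₁.V ≃ₗ[k] LinearMap.range S.f.hom.toLinearMap :=
      LinearEquiv.ofInjective S.f.hom.toLinearMap h1
    have hmem : ∀ y, f y ∈ LinearMap.range S.f.hom.toLinearMap := fun y => h2 (f y) (hf' y)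
    refine ⟨e.symm.toLinearMap ∘ₗ f.codRestrict _ hmem, ?_⟩
    apply LinearMap.ext
    intro y
    show S.f.hom (e.symm (f.codRestrict _ hmem y)) = f y
    have := e.apply_symm_apply (f.codRestrict _ hmem y)
    exact congrArg Subtype.val this
  · intro f
    change Y.V →ₗ[k] S.X₃.V at f
    have : Module.Projective k Y.V := hY
    obtain ⟨f', hf'⟩ := Module.projective_lifting_property S.g.hom.toLinearMap f h3
    exact ⟨f', hf'⟩

/-- Trace-one passes to `Hom(Y, -)`. -/
theorem fg_traceOne_hom [Fintype G] (Y B : Rep.{0} k G) (h : fg_TraceOne B) :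
    fg_TraceOne (tt_hom Y B) := by
  obtain ⟨π, hπ⟩ := h
  refine ⟨LinearMap.llcomp k Y.V B.V B.V π, fun f => ?_⟩
  change Y.V →ₗ[k] B.V at f
  apply LinearMap.ext
  intro y
  rw [LinearMap.sum_apply]
  rw [← hπ (f y)]
  refine Finset.sum_congr rfl fun g _ => ?_
  show B.ρ g (π (B.ρ g⁻¹ (f (Y.ρ (g⁻¹)⁻¹ (Y.ρ g⁻¹ y))))) = _
  have hy : Y.ρ (g⁻¹)⁻¹ (Y.ρ g⁻¹ y) = y := by
    rw [inv_inv]
    have := Module.End.mul_apply (Y.ρ g) (Y.ρ g⁻¹) y
    rw [← this, ← map_mul, mul_inv_cancel, map_one, Module.End.one_apply]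
  rw [hy]

lemma fg_homPost_nsmul (Y X : Rep.{0} k G) (m : ℕ) :
    tt_homPost Y (m • 𝟙 X) = m • 𝟙 (tt_hom Y X) := by
  ext f y
  show (m • 𝟙 X : X ⟶ X).hom (f y) = (m • 𝟙 (tt_hom Y X) : tt_hom Y X ⟶ tt_hom Y X).hom f y
  rw [fg_nsmul_id_apply, fg_nsmul_id_apply]
  rfl

/-- A linear equivalence built from an additive one commuting with scalars. -/
def fg_linEquivOfAdd (Y : Rep.{0} k G) {M : Type} [AddCommGroup M] [Module k M] (e : Y.V ≃+ M)
    (he : ∀ (c : k) (y : Y.V), e (c • y) = c • e y) : Y.V ≃ₗ[k] M :=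
  { e with map_smul' := he }

lemma fg_isProj_of_linEquiv (Y : Rep.{0} k G) {M : Type} [AddCommGroup M] [Module k M]
    [Module.Projective k M] (e : Y.V ≃ₗ[k] M) : fg_IsProj Y :=
  Module.Projective.of_equiv e.symm


end hom

theorem fg_isProj_of_lattice {G : Type} [Group G] (Y : Rep.{0} ℤ G) (hY : tt_IsLattice Y) :
    fg_IsProj Y := by
  obtain ⟨n, ⟨e⟩⟩ := hY
  refine fg_isProj_of_linEquiv Y (fg_linEquivOfAdd Y e (fun c y => ?_))
  have e1 : Y.hV2.smul c y = c • y := int_smul_eq_zsmul Y.hV2 c y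
  show e (Y.hV2.smul c y) = c • e y
  rw [e1, map_zsmul]


/-- Step I: over a finite `p`-group, a `p`-torsion-free `X` with `H¹(G, X) = H²(G, X) = 0`
has `Hom(Y, X)` cohomologically trivial for every `ℤ`-projective `Y`. -/
theorem fg_hom_cohTrivial_of_torsionFree {p : ℕ} [Fact p.Prime] {G : Type} [Group G] [Fintype G]
    (hG : IsPGroup p G) (X : Rep.{0} ℤ G) (htf : ∀ x : X.V, p • x = 0 → x = 0)
    (h1 : Limits.IsZero (groupCohomology X 1)) (h2 : Limits.IsZero (groupCohomology X 2))
    (Y : Rep.{0} ℤ G) (hY : fg_IsProj Y) : fg_CohTrivial (tt_hom Y X) := by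
  classical
  have hS := fg_modSC_shortExact X p htf
  -- Tate vanishing of `X` in degrees 1, 2
  have t1 : Limits.IsZero (tateCohomology X ((1 : ℕ) : ℤ)) :=
    h1.of_iso ((TateCohomology.isoGroupCohomology 1).app X)
  have t2 : Limits.IsZero (tateCohomology X ((2 : ℕ) : ℤ)) :=
    h2.of_iso ((TateCohomology.isoGroupCohomology 2).app X)
  -- hence `Ĥ¹(G, X/p) = 0`
  have tB : Limits.IsZero (tateCohomology (fg_mod X p) ((1 : ℕ) : ℤ)) :=
    fg_isZero_tate_X₃ hS 1 t1 t2
  have hB : Limits.IsZero (groupCohomology (fg_mod X p) 1) :=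
    tB.of_iso ((TateCohomology.isoGroupCohomology 1).app (fg_mod X p)).symm
  have hTO : fg_TraceOne (fg_mod X p) := fg_traceOne_of_H1 hG _ (fg_mod_nsmul X p) hB
  have hct : fg_CohTrivial (tt_hom Y (fg_mod X p)) := (fg_traceOne_hom Y _ hTO).cohTrivial
  have hS' := fg_homSC_shortExact Y hY hS
  intro H _ n
  have hSH := (Rep.shortExact_res H.subtype).2 hS'
  -- `p` is surjective on `Ĥⁿ(H, Hom(Y, X))`
  have hsurj : ∀ x : tateCohomology (Rep.res H.subtype (tt_hom Y X)) n,
      ∃ y : tateCohomology (Rep.res H.subtype (tt_hom Y X)) n, p • y = x := by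
    intro x
    refine fg_nsmul_surjective_of_isZero p
      ((Rep.resFunctor H.subtype).map (tt_homPost Y (p • 𝟙 X))) ?_
      ((Rep.resFunctor H.subtype).map (tt_homPost Y (fg_modπ X p))) _ hSH n (hct H n) x
    rw [fg_homPost_nsmul, Functor.map_nsmul, CategoryTheory.Functor.map_id]
  -- `|H| = p^a` kills it
  obtain ⟨a, ha⟩ := (hG.to_subgroup H).exists_card_eq
  have hkill : ∀ x : tateCohomology (Rep.res H.subtype (tt_hom Y X)) n, p ^ a • x = 0 := by
    intro x
    rw [← ha, Nat.card_eq_fintype_card]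
    exact fg_card_smul_eq_zero _ n x
  rw [ModuleCat.isZero_iff_subsingleton]
  exact ⟨fun x y => by
    rw [fg_eq_zero_of_divisible p a hsurj hkill x, fg_eq_zero_of_divisible p a hsurj hkill y]⟩


section cover

variable {k G : Type u} [CommRing k] [Group G]

/-- `Fun(G, V) → Fun(G, W)` induced by a linear map `V → W` (equivariant for right
translation). -/
def fg_coind₁MapLin {V W : Type u} [AddCommGroup V] [Module k V] [AddCommGroup W] [Module k W]
    (l : V →ₗ[k] W) : Rep.of (fg_funRep k G V) ⟶ Rep.of (fg_funRep k G W) :=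
  Rep.ofHom ⟨l.compLeft G, fun g => by ext φ x; rfl⟩

lemma fg_coind₁MapLin_apply {V W : Type u} [AddCommGroup V] [Module k V] [AddCommGroup W]
    [Module k W] (l : V →ₗ[k] W) (φ : G → V) (x : G) :
    (fg_coind₁MapLin (G := G) l).hom φ x = l (φ x) := rfl

/-- A cohomologically trivial cover of `B` with free underlying module. -/
def fg_freeCover (B : Rep k G) : Rep k G := Rep.of (fg_funRep k G (B.V →₀ k))

variable [Fintype G]

/-- The surjection `fg_freeCover B → B`. -/
def fg_freeCoverπ (B : Rep k G) : fg_freeCover B ⟶ B :=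
  fg_coind₁MapLin (Finsupp.linearCombination k (id : B.V → B.V)) ≫ fg_ε B

instance fg_freeCoverπ_epi (B : Rep k G) : Epi (fg_freeCoverπ B) := by
  have h1 : Epi (fg_coind₁MapLin (G := G) (Finsupp.linearCombination k (id : B.V → B.V))) := by
    rw [Rep.epi_iff_surjective]
    intro φ
    change G → B.V at φ
    refine ⟨fun x => Finsupp.single (φ x) 1, ?_⟩
    funext x
    rw [fg_coind₁MapLin_apply]
    simp
  unfold fg_freeCoverπ
  exact @epi_comp _ _ _ _ _ _ h1 _ inferInstance

theorem fg_traceOne_freeCover (B : Rep k G) : fg_TraceOne (fg_freeCover B) :=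
  fg_traceOne_coind₁ (Rep.trivial k G (B.V →₀ k))

omit [Fintype G] in
lemma fg_freeCover_torsionFree (B : Rep k G) (p : ℕ) (hk : ∀ c : k, p • c = 0 → c = 0)
    (φ : (fg_freeCover B).V) (h : p • φ = 0) : φ = 0 := by
  change G → (B.V →₀ k) at φ
  funext x
  ext v
  apply hk
  have h1 : (p • φ) x v = p • (φ x v) := by
    rw [Pi.smul_apply, Finsupp.smul_apply]
  have h2 : (p • φ : G → (B.V →₀ k)) = 0 := h
  rw [← h1, h2]
  rfl

/-- The kernel of the cover. -/
def fg_coverKer (B : Rep k G) : Rep k G := Limits.kernel (fg_freeCoverπ B)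

def fg_coverKerι (B : Rep k G) : fg_coverKer B ⟶ fg_freeCover B :=
  Limits.kernel.ι (fg_freeCoverπ B)

instance fg_coverKerι_mono (B : Rep k G) : Mono (fg_coverKerι B) :=
  (inferInstance : Mono (Limits.kernel.ι (fg_freeCoverπ B)))

/-- The short exact sequence `0 → R' → F' → B → 0`. -/
def fg_coverSC (B : Rep k G) : ShortComplex (Rep k G) :=
  ShortComplex.mk (fg_coverKerι B) (fg_freeCoverπ B) (Limits.kernel.condition _)

lemma fg_coverSC_shortExact (B : Rep k G) : (fg_coverSC B).ShortExact where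
  exact := ShortComplex.exact_kernel _
  mono_f := inferInstanceAs (Mono (fg_coverKerι B))
  epi_g := inferInstanceAs (Epi (fg_freeCoverπ B))

lemma fg_coverKer_torsionFree (B : Rep k G) (p : ℕ) (hk : ∀ c : k, p • c = 0 → c = 0)
    (x : (fg_coverKer B).V) (h : p • x = 0) : x = 0 := by
  have hinj := (Rep.mono_iff_injective (fg_coverKerι B)).1 inferInstance
  apply hinj
  rw [map_zero]
  apply fg_freeCover_torsionFree B p hk
  rw [← map_nsmul, h, map_zero]

end cover


section helpers
variable {R G : Type u} [CommRing R] [Group G]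

/-- The top subgroup sees the whole group. -/
lemma fg_isZero_tate_of_top [Fintype G] [Fintype (⊤ : Subgroup G)] (A : Rep R G) (n : ℤ)
    (h : Limits.IsZero (tateCohomology (Rep.res (⊤ : Subgroup G).subtype A) n)) :
    Limits.IsZero (tateCohomology A n) := by
  have h1 := fg_isZero_tate_equiv (Subgroup.topEquiv (G := G)).symm (⊤ : Subgroup G).subtype
    Subtype.val_injective A n h
  exact fg_isZero_tate_congr (f' := MonoidHom.id G) (MonoidHom.ext fun _ => rfl) A n h1

lemma fg_isZero_tate_up {H : Type u} [Group H] [Fintype H] (f : H →* G)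
    (hf : Function.Injective f) (A : Rep R G) (i j : ℤ) (hij : i + 1 = j)
    (h : Limits.IsZero (tateCohomology (Rep.res f A) j)) :
    Limits.IsZero (tateCohomology (Rep.res f (fg_up A)) i) := by
  subst hij
  exact h.of_iso (fg_upIso f hf A i)

end helpers


/-- **Serre IX Thm 6/8/9 (compressed).**  Over a finite `p`-group, if `H¹(H, A) = H²(H, A) = 0`
for all subgroups `H`, then `Hom(Y, A)` is cohomologically trivial for every lattice `Y`. -/
theorem fg_hom_cohTrivial_pgroup {p : ℕ} [Fact p.Prime] {G : Type} [Group G] [Fintype G]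
    (hG : IsPGroup p G) (A : Rep.{0} ℤ G)
    (hA : ∀ H : Subgroup G, Limits.IsZero (groupCohomology (Rep.res H.subtype A) 1) ∧
      Limits.IsZero (groupCohomology (Rep.res H.subtype A) 2))
    (Y : Rep.{0} ℤ G) (hY : tt_IsLattice Y) (H : Subgroup G) [Fintype H] (n : ℤ) :
    Limits.IsZero (tateCohomology (Rep.res H.subtype (tt_hom Y A)) n) := by
  classical
  -- Tate form of the hypotheses
  have tA1 : ∀ (K : Subgroup G) [Fintype K],
      Limits.IsZero (tateCohomology (Rep.res K.subtype A) ((1 : ℕ) : ℤ)) := fun K _ =>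
    (hA K).1.of_iso ((TateCohomology.isoGroupCohomology 1).app _)
  have tA2 : ∀ (K : Subgroup G) [Fintype K],
      Limits.IsZero (tateCohomology (Rep.res K.subtype A) ((2 : ℕ) : ℤ)) := fun K _ =>
    (hA K).2.of_iso ((TateCohomology.isoGroupCohomology 2).app _)
  -- shift up
  have tU0 : ∀ (K : Subgroup G) [Fintype K],
      Limits.IsZero (tateCohomology (Rep.res K.subtype (fg_up A)) 0) := fun K _ =>
    fg_isZero_tate_up K.subtype Subtype.val_injective A 0 ((1 : ℕ) : ℤ) (by norm_num) (tA1 K)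
  have tU1 : ∀ (K : Subgroup G) [Fintype K],
      Limits.IsZero (tateCohomology (Rep.res K.subtype (fg_up A)) 1) := fun K _ =>
    fg_isZero_tate_up K.subtype Subtype.val_injective A 1 ((2 : ℕ) : ℤ) (by norm_num) (tA2 K)
  -- the torsion-free cover of `fg_up A`
  have hS := fg_coverSC_shortExact (fg_up A)
  have hF : fg_CohTrivial (fg_freeCover (fg_up A)) := (fg_traceOne_freeCover (fg_up A)).cohTrivial
  have tR1 : ∀ (K : Subgroup G) [Fintype K],
      Limits.IsZero (tateCohomology (Rep.res K.subtype (fg_coverKer (fg_up A))) 1) := fun K _ =>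
    fg_isZero_tate_X₁ ((Rep.shortExact_res K.subtype).2 hS) 0 1 (by norm_num) (tU0 K) (hF K 1)
  have tR2 : ∀ (K : Subgroup G) [Fintype K],
      Limits.IsZero (tateCohomology (Rep.res K.subtype (fg_coverKer (fg_up A))) 2) := fun K _ =>
    fg_isZero_tate_X₁ ((Rep.shortExact_res K.subtype).2 hS) 1 2 (by norm_num) (tU1 K) (hF K 2)
  -- for the whole group
  have gR1 : Limits.IsZero (groupCohomology (fg_coverKer (fg_up A)) 1) :=
    (fg_isZero_tate_of_top _ 1 (tR1 ⊤)).of_iso
      ((TateCohomology.isoGroupCohomology 1).app (fg_coverKer (fg_up A))).symm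
  have gR2 : Limits.IsZero (groupCohomology (fg_coverKer (fg_up A)) 2) :=
    (fg_isZero_tate_of_top _ 2 (tR2 ⊤)).of_iso
      ((TateCohomology.isoGroupCohomology 2).app (fg_coverKer (fg_up A))).symm
  have hY' := fg_isProj_of_lattice Y hY
  have hp0 : ∀ c : ℤ, p • c = 0 → c = 0 := fun c hc => by
    rw [nsmul_eq_mul] at hc
    rcases mul_eq_zero.1 hc with h | h
    · exact absurd (by exact_mod_cast h) (Fact.out : p.Prime).ne_zero
    · exact h
  -- Step I
  have hR : fg_CohTrivial (tt_hom Y (fg_coverKer (fg_up A))) :=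
    fg_hom_cohTrivial_of_torsionFree hG _ (fg_coverKer_torsionFree (fg_up A) p hp0) gR1 gR2 Y hY'
  -- climb back
  have hYF : fg_CohTrivial (tt_hom Y (fg_freeCover (fg_up A))) :=
    (fg_traceOne_hom Y _ (fg_traceOne_freeCover (fg_up A))).cohTrivial
  have hU : fg_CohTrivial (tt_hom Y (fg_up A)) := by
    have h1 := fg_homSC_shortExact Y hY' hS
    have h2 : fg_CohTrivial (fg_homSC Y (fg_coverSC (fg_up A))).X₁ := hR
    have h3 : fg_CohTrivial (fg_homSC Y (fg_coverSC (fg_up A))).X₂ := hYF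
    have h4 := fg_cohTrivial_X₃ h1 h2 h3
    exact h4
  have hYC : fg_CohTrivial (tt_hom Y (fg_coind₁ A)) :=
    (fg_traceOne_hom Y _ (fg_traceOne_coind₁ A)).cohTrivial
  have hAfin : fg_CohTrivial (tt_hom Y A) := by
    have h1 := fg_homSC_shortExact Y hY' (fg_upSC_shortExact A)
    have h2 : fg_CohTrivial (fg_homSC Y (fg_upSC A)).X₂ := hYC
    have h3 : fg_CohTrivial (fg_homSC Y (fg_upSC A)).X₃ := hU
    have h4 := fg_cohTrivial_X₁ h1 h2 h3
    exact h4
  exact hAfin H n


lemma fg_res_hom {Γ : Type} [Group Γ] (P : Subgroup Γ) (Y A : Rep.{0} ℤ Γ) :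
    Rep.res P.subtype (tt_hom Y A) = tt_hom (Rep.res P.subtype Y) (Rep.res P.subtype A) := rfl

/-- Transport of group cohomology vanishing to a subgroup of a subgroup. -/
lemma fg_isZero_groupCohomology_nested {k Γ : Type u} [CommRing k] [Group Γ] (P : Subgroup Γ)
    (K : Subgroup P) (A : Rep k Γ) (n : ℕ)
    (h : Limits.IsZero (groupCohomology (Rep.res (K.map P.subtype).subtype A) n)) :
    Limits.IsZero (groupCohomology (Rep.res K.subtype (Rep.res P.subtype A)) n) :=
  h.of_iso (groupCohomology.mapIso (K.equivMapOfInjective P.subtype Subtype.val_injective)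
    (LinearEquiv.refl k A.V) (fun _ => rfl) n)

/-- `Hom(Y, A)` is cohomologically trivial over every Sylow `p`-subgroup `P` of `Γ` as soon as
`H¹ = H² = 0` on all `p`-subgroups. -/
theorem fg_hom_isZero_sylow {p : ℕ} [Fact p.Prime] {Γ : Type} [Group Γ] [Fintype Γ]
    (A : Rep.{0} ℤ Γ)
    (hA : ∀ H : Subgroup Γ, IsPGroup p H →
      Limits.IsZero (groupCohomology (Rep.res H.subtype A) 1) ∧
      Limits.IsZero (groupCohomology (Rep.res H.subtype A) 2))
    (Y : Rep.{0} ℤ Γ) (hY : tt_IsLattice Y) (P : Sylow p Γ) [Fintype P] (n : ℤ) :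
    Limits.IsZero (tateCohomology (Rep.res (P : Subgroup Γ).subtype (tt_hom Y A)) n) := by
  classical
  rw [fg_res_hom]
  have hP : IsPGroup p (P : Subgroup Γ) := P.isPGroup'
  have hA' : ∀ K : Subgroup (P : Subgroup Γ),
      Limits.IsZero (groupCohomology (Rep.res K.subtype (Rep.res (P : Subgroup Γ).subtype A)) 1) ∧
      Limits.IsZero (groupCohomology (Rep.res K.subtype (Rep.res (P : Subgroup Γ).subtype A)) 2) := by
    intro K
    have hK : IsPGroup p (K.map (P : Subgroup Γ).subtype) := (hP.to_subgroup K).map _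
    exact ⟨fg_isZero_groupCohomology_nested _ K A 1 (hA _ hK).1,
      fg_isZero_groupCohomology_nested _ K A 2 (hA _ hK).2⟩
  have hY' : tt_IsLattice (Rep.res (P : Subgroup Γ).subtype Y) := hY
  have h := fg_hom_cohTrivial_pgroup hP (Rep.res (P : Subgroup Γ).subtype A) hA'
    (Rep.res (P : Subgroup Γ).subtype Y) hY' ⊤ n
  exact fg_isZero_tate_of_top _ n h

/-- **`p`-primary vanishing of `Hⁿ(Γ, Hom(Y, A))`, `n ≥ 1`.** -/
theorem fg_hom_pPrimary_vanish {p : ℕ} [Fact p.Prime] {Γ : Type} [Group Γ] [Fintype Γ]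
    (A : Rep.{0} ℤ Γ)
    (hA : ∀ H : Subgroup Γ, IsPGroup p H →
      Limits.IsZero (groupCohomology (Rep.res H.subtype A) 1) ∧
      Limits.IsZero (groupCohomology (Rep.res H.subtype A) 2))
    (Y : Rep.{0} ℤ Γ) (hY : tt_IsLattice Y) (n : ℕ) (hn : 0 < n)
    (x : groupCohomology (tt_hom Y A) n) : ∃ m : ℕ, ¬ p ∣ m ∧ m • x = 0 := by
  classical
  obtain ⟨P⟩ : Nonempty (Sylow p Γ) := inferInstance
  have : NeZero n := ⟨hn.ne'⟩
  refine ⟨(P : Subgroup Γ).index, P.not_dvd_index, ?_⟩
  have hz := fg_hom_isZero_sylow A hA Y hY P (n : ℤ)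
  let e : tateCohomology (tt_hom Y A) (n : ℤ) ≅ groupCohomology (tt_hom Y A) n :=
    (TateCohomology.isoGroupCohomology n).app (tt_hom Y A)
  let e' := e.toLinearEquiv
  have hx : x = e' (e'.symm x) := (e'.apply_symm_apply x).symm
  rw [hx, ← map_nsmul, fg_index_smul_eq_zero' (P : Subgroup Γ) n (tt_hom Y A) hz (e'.symm x),
    map_zero]


end

end Fermat.Agent.S55
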