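import Mathlib
import Fermat.Agent.S55.FinGrp.H2Torsion
import Fermat.Agent.S55.Tate.ClassModule

/-!
# S55, block [A], leaves (A-F) and (A-N)

* `fh_finite_H2`: `H²(Γ, Y)` is finite for a finite group `Γ` and a lattice `Y`
  (finitely generated and killed by `|Γ|`);
* `fh_coeffMap_eq_zero_of_norm`: a morphism `φ : Y ⟶ C` which is a norm
  `φ = ∑ g, g ψ g⁻¹` of an additive map `ψ` induces zero on `H²` (explicit cocycle computation).

Everything is proved over an arbitrary commutative ring `k` first (this avoids the `Module ℤ`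
instance diamond) and then specialised to `k = ℤ`.
-/

set_option autoImplicit false

namespace Fermat.Agent.S55

open CategoryTheory groupCohomology

/-! ### (A-F) finiteness -/

section finite

/-- `H²(G, Y)` is a finitely generated `k`-module if `Y` is, for `G` finite and `k` noetherian -/
theorem fh_moduleFinite_H2 {k G : Type} [CommRing k] [IsNoetherianRing k] [Group G] [Finite G]
    (Y : Rep.{0} k G) [Module.Finite k Y.V] : Module.Finite k (H2 Y) := by
  have h2 : Module.Finite k (G × G → Y.V) := Module.Finite.pi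
  have h3 : IsNoetherian k (G × G → Y.V) := isNoetherian_of_isNoetherianRing_of_finite k _
  have h4 : Module.Finite k ↥(cocycles₂ Y) := Module.IsNoetherian.finite k _
  have hsurj : Function.Surjective (H2π Y).hom :=
    (ModuleCat.epi_iff_surjective (H2π Y)).mp inferInstance
  exact Module.Finite.of_surjective (H2π Y).hom hsurj

/-- a finitely generated `ℤ`-module (for any `ℤ`-module structure) killed by `N ≠ 0` is finite -/
theorem fh_finite_of_fg_of_nsmul {M : Type*} [AddCommGroup M] [Module ℤ M] [Module.Finite ℤ M]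
    (N : ℕ) (hN : N ≠ 0) (h : ∀ x : M, N • x = 0) : Finite M := by
  apply Module.finite_of_fg_torsion M
  intro x
  refine ⟨⟨(N : ℤ), mem_nonZeroDivisors_of_ne_zero (by exact_mod_cast hN)⟩, ?_⟩
  exact (Nat.cast_smul_eq_nsmul ℤ N x).trans (h x)

variable {Γ : Type} [Group Γ]

/-- a lattice is a finitely generated `ℤ`-module (for the module structure of the `Rep`) -/
theorem fh_moduleFinite_of_lattice (Y : Rep.{0} ℤ Γ)
    (hY : ∃ n : ℕ, Nonempty (Y.V ≃+ (Fin n → ℤ))) : @Module.Finite ℤ Y.V _ _ Y.hV2 := by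
  obtain ⟨n, ⟨e⟩⟩ := hY
  have hinst : Y.hV2 = AddCommGroup.toIntModule Y.V := Subsingleton.elim _ _
  rw [hinst]
  exact Module.Finite.equiv e.toIntLinearEquiv.symm

/-- **(A-F)** `H²(Γ, Y)` is finite for a lattice `Y` over a finite group `Γ`. -/
theorem fh_finite_H2 [Finite Γ] (Y : Rep.{0} ℤ Γ)
    (hY : ∃ n : ℕ, Nonempty (Y.V ≃+ (Fin n → ℤ))) : Finite (groupCohomology Y 2) := by
  have h1 : @Module.Finite ℤ Y.V _ _ Y.hV2 := fh_moduleFinite_of_lattice Y hY
  have h5 : @Module.Finite ℤ (H2 Y) _ _ (H2 Y).isModule := @fh_moduleFinite_H2 ℤ Γ _ _ _ _ Y h1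
  exact @fh_finite_of_fg_of_nsmul (H2 Y) _ (H2 Y).isModule h5 (Nat.card Γ) Nat.card_pos.ne'
    (fun x => h2_card_smul_eq_zero Y x)

end finite

/-! ### (A-N) norms induce zero on `H²` -/

section norm

variable {k Γ : Type} [CommRing k] [Group Γ]

/-- the conjugate `g ψ g⁻¹` of an additive map -/
noncomputable def fh_conj (Y C : Rep.{0} k Γ) (ψ : Y.V →+ C.V) (g : Γ) (y : Y.V) : C.V :=
  C.ρ g (ψ (Y.ρ g⁻¹ y))

theorem fh_conj_add (Y C : Rep.{0} k Γ) (ψ : Y.V →+ C.V) (g : Γ) (y y' : Y.V) :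
    fh_conj Y C ψ g (y + y') = fh_conj Y C ψ g y + fh_conj Y C ψ g y' := by
  simp [fh_conj]

theorem fh_conj_sub (Y C : Rep.{0} k Γ) (ψ : Y.V →+ C.V) (g : Γ) (y y' : Y.V) :
    fh_conj Y C ψ g (y - y') = fh_conj Y C ψ g y - fh_conj Y C ψ g y' := by
  simp [fh_conj]

theorem fh_smul_conj (Y C : Rep.{0} k Γ) (ψ : Y.V →+ C.V) (s g : Γ) (y : Y.V) :
    C.ρ s (fh_conj Y C ψ g y) = fh_conj Y C ψ (s * g) (Y.ρ s y) := by
  unfold fh_conj
  have h1 : Y.ρ (s * g)⁻¹ (Y.ρ s y) = Y.ρ g⁻¹ y := by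
    rw [← Module.End.mul_apply, ← map_mul, mul_inv_rev, inv_mul_cancel_right]
  rw [h1, map_mul, Module.End.mul_apply]

variable [Fintype Γ]

/-- the explicit `1`-cochain bounding `N(ψ) ∘ f` -/
noncomputable def fh_bound (Y C : Rep.{0} k Γ) (ψ : Y.V →+ C.V) (f : Γ × Γ → Y.V) (s : Γ) : C.V :=
  ∑ u : Γ, fh_conj Y C ψ (s * u) (f (s, u))

theorem fh_norm_cocycle_eq (Y C : Rep.{0} k Γ) (ψ : Y.V →+ C.V) {f : Γ × Γ → Y.V}
    (hf : h2_IsZ2 Y.ρ f) (s t : Γ) :
    ∑ g : Γ, fh_conj Y C ψ g (f (s, t)) =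
      C.ρ s (fh_bound Y C ψ f t) - fh_bound Y C ψ f (s * t) + fh_bound Y C ψ f s := by
  -- the cocycle identity, solved for `f (s, t)`
  have hco : ∀ u : Γ, f (s, t) = Y.ρ s (f (t, u)) - f (s * t, u) + f (s, t * u) := by
    intro u
    calc f (s, t) = (f (s * t, u) + f (s, t)) - f (s * t, u) := by abel
      _ = (Y.ρ s (f (t, u)) + f (s, t * u)) - f (s * t, u) := by rw [hf s t u]
      _ = Y.ρ s (f (t, u)) - f (s * t, u) + f (s, t * u) := by abel
  -- reindex the norm by `g = s * t * u`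
  have h1 : ∑ g : Γ, fh_conj Y C ψ g (f (s, t)) =
      ∑ u : Γ, fh_conj Y C ψ (s * t * u) (f (s, t)) :=
    (Equiv.sum_comp (Equiv.mulLeft (s * t)) fun g => fh_conj Y C ψ g (f (s, t))).symm
  rw [h1]
  have h2 : ∀ u : Γ, fh_conj Y C ψ (s * t * u) (f (s, t)) =
      fh_conj Y C ψ (s * t * u) (Y.ρ s (f (t, u))) - fh_conj Y C ψ (s * t * u) (f (s * t, u)) +
        fh_conj Y C ψ (s * t * u) (f (s, t * u)) := by
    intro u
    conv_lhs => rw [hco u]
    rw [fh_conj_add, fh_conj_sub]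
  rw [Finset.sum_congr rfl fun u _ => h2 u, Finset.sum_add_distrib, Finset.sum_sub_distrib]
  congr 1
  · congr 1
    rw [fh_bound, map_sum]
    refine Finset.sum_congr rfl fun u _ => ?_
    rw [fh_smul_conj, mul_assoc]
  · rw [fh_bound]
    have := Equiv.sum_comp (Equiv.mulLeft t) fun u => fh_conj Y C ψ (s * u) (f (s, u))
    rw [← this]
    refine Finset.sum_congr rfl fun u _ => ?_
    rw [Equiv.coe_mulLeft, mul_assoc]

/-- **(A-N)** a norm `φ = ∑ g, g ψ g⁻¹` induces the zero map on `H²`. -/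
theorem fh_coeffMap_eq_zero_of_norm (Y C : Rep.{0} k Γ) (φ : Y ⟶ C) (ψ : Y.V →+ C.V)
    (h : ∀ y, φ.hom y = ∑ g : Γ, C.ρ g (ψ (Y.ρ g⁻¹ y))) : tt_coeffMap φ 2 = 0 := by
  apply ModuleCat.hom_ext
  apply LinearMap.ext
  intro z
  induction z using H2_induction_on with | h x => ?_
  rw [H2π_comp_map_apply]
  show H2π C _ = 0
  rw [H2π_eq_zero_iff, h2_mem_coboundaries₂_iff]
  refine ⟨fh_bound Y C ψ (x : Γ × Γ → Y.V), ?_⟩
  funext ⟨s, t⟩
  rw [coe_mapCocycles₂]
  show φ.hom ((x : Γ × Γ → Y.V) (s, t)) = _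
  rw [h]
  exact fh_norm_cocycle_eq Y C ψ (h2_isZ2_of_cocycle Y x) s t

end norm

end Fermat.Agent.S55
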