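import Fermat.Agent.S55.FinGrp.CohTrivial

set_option autoImplicit false

/-!
# Cohomological triviality in short exact sequences (S55, block (A3)(b), part 1)

Two-out-of-three for Tate-vanishing / `fg_CohTrivial` along short exact sequences of
representations, and the sequence `0 → X --m--> X → X/m → 0`.
-/

universe u

open CategoryTheory

namespace Fermat.Agent.S55

noncomputable section

variable {R G : Type u} [CommRing R] [Group G]

section single

variable [Fintype G] {S : ShortComplex (Rep R G)} (hS : S.ShortExact)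

include hS

lemma fg_isZero_tate_X₃ (n : ℤ) (h2 : Limits.IsZero (tateCohomology S.X₂ n))
    (h1 : Limits.IsZero (tateCohomology S.X₁ (n + 1))) :
    Limits.IsZero (tateCohomology S.X₃ n) :=
  ((TateCohomology.map_tateComplexFunctor_shortExact hS).homology_exact₃ n (n + 1)
    rfl).isZero_of_both_zeros (h2.eq_of_src _ _) (h1.eq_of_tgt _ _)

lemma fg_isZero_tate_X₁ (i n : ℤ) (hin : i + 1 = n) (h3 : Limits.IsZero (tateCohomology S.X₃ i))
    (h2 : Limits.IsZero (tateCohomology S.X₂ n)) :
    Limits.IsZero (tateCohomology S.X₁ n) :=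
  ((TateCohomology.map_tateComplexFunctor_shortExact hS).homology_exact₁ i n
    hin).isZero_of_both_zeros (h3.eq_of_src _ _) (h2.eq_of_tgt _ _)

lemma fg_isZero_tate_X₂ (n : ℤ) (h1 : Limits.IsZero (tateCohomology S.X₁ n))
    (h3 : Limits.IsZero (tateCohomology S.X₃ n)) :
    Limits.IsZero (tateCohomology S.X₂ n) :=
  ((TateCohomology.map_tateComplexFunctor_shortExact hS).homology_exact₂ n
    ).isZero_of_both_zeros (h1.eq_of_src _ _) (h3.eq_of_tgt _ _)

end single

section all

variable {S : ShortComplex (Rep R G)} (hS : S.ShortExact)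

include hS

theorem fg_cohTrivial_X₃ (h1 : fg_CohTrivial S.X₁) (h2 : fg_CohTrivial S.X₂) :
    fg_CohTrivial S.X₃ := fun H _ n =>
  fg_isZero_tate_X₃ ((Rep.shortExact_res H.subtype).2 hS) n (h2 H n) (h1 H (n + 1))

theorem fg_cohTrivial_X₁ (h2 : fg_CohTrivial S.X₂) (h3 : fg_CohTrivial S.X₃) :
    fg_CohTrivial S.X₁ := fun H _ n =>
  fg_isZero_tate_X₁ ((Rep.shortExact_res H.subtype).2 hS) (n - 1) n (sub_add_cancel n 1)
    (h3 H (n - 1)) (h2 H n)

theorem fg_cohTrivial_X₂ (h1 : fg_CohTrivial S.X₁) (h3 : fg_CohTrivial S.X₃) :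
    fg_CohTrivial S.X₂ := fun H _ n =>
  fg_isZero_tate_X₂ ((Rep.shortExact_res H.subtype).2 hS) n (h1 H n) (h3 H n)

end all

section elementwise

/-- Elementwise criterion for exactness in `Rep R G`. -/
lemma fg_exact_iff (S : ShortComplex (Rep R G)) :
    S.Exact ↔ ∀ x : S.X₂.V, S.g.hom x = 0 → ∃ y : S.X₁.V, S.f.hom y = x := by
  rw [← ShortComplex.exact_map_iff_of_faithful S (forget₂ (Rep R G) (ModuleCat R)),
    ShortComplex.moduleCat_exact_iff]
  rfl

/-- Elementwise criterion for short exactness in `Rep R G`. -/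
lemma fg_shortExact_iff (S : ShortComplex (Rep R G)) :
    S.ShortExact ↔ Function.Injective S.f.hom ∧
      (∀ x : S.X₂.V, S.g.hom x = 0 → ∃ y : S.X₁.V, S.f.hom y = x) ∧
      Function.Surjective S.g.hom := by
  constructor
  · intro h
    exact ⟨(Rep.mono_iff_injective _).1 h.mono_f, (fg_exact_iff S).1 h.exact,
      (Rep.epi_iff_surjective _).1 h.epi_g⟩
  · rintro ⟨h1, h2, h3⟩
    exact { exact := (fg_exact_iff S).2 h2
            mono_f := (Rep.mono_iff_injective _).2 h1
            epi_g := (Rep.epi_iff_surjective _).2 h3 }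


end elementwise

section modm

instance fg_tateCohomologyFunctor_additive [Fintype G] (n : ℤ) :
    (tateCohomologyFunctor (R := R) (G := G) n).Additive := by
  unfold tateCohomologyFunctor; infer_instance

/-- `X / m X` as a representation. -/
def fg_mod (X : Rep R G) (m : ℕ) : Rep R G := Limits.cokernel (m • 𝟙 X)

/-- The projection `X → X / m X`. -/
def fg_modπ (X : Rep R G) (m : ℕ) : X ⟶ fg_mod X m := Limits.cokernel.π (m • 𝟙 X)

instance fg_modπ_epi (X : Rep R G) (m : ℕ) : Epi (fg_modπ X m) :=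
  (inferInstance : Epi (Limits.cokernel.π (m • 𝟙 X)))

/-- The short complex `X --m--> X → X / m X`. -/
def fg_modSC (X : Rep R G) (m : ℕ) : ShortComplex (Rep R G) :=
  ShortComplex.mk (m • 𝟙 X) (fg_modπ X m) (Limits.cokernel.condition _)

lemma fg_nsmul_id_apply (X : Rep R G) (m : ℕ) (x : X.V) : (m • 𝟙 X : X ⟶ X).hom x = m • x := by
  rw [Rep.nsmul_hom]
  rfl

lemma fg_modSC_shortExact (X : Rep R G) (m : ℕ) (h : ∀ x : X.V, m • x = 0 → x = 0) :
    (fg_modSC X m).ShortExact where
  exact := ShortComplex.exact_cokernel _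
  mono_f := by
    show Mono (m • 𝟙 X)
    rw [Rep.mono_iff_injective]
    refine (injective_iff_map_eq_zero _).2 fun x hx => h x ?_
    rw [← fg_nsmul_id_apply]; exact hx
  epi_g := inferInstanceAs (Epi (fg_modπ X m))

lemma fg_mod_nsmul (X : Rep R G) (m : ℕ) (b : (fg_mod X m).V) : m • b = 0 := by
  obtain ⟨x, rfl⟩ := (Rep.epi_iff_surjective (fg_modπ X m)).1 inferInstance b
  rw [← map_nsmul, ← fg_nsmul_id_apply]
  exact congrArg (fun f : X ⟶ fg_mod X m => f.hom x) (Limits.cokernel.condition (m • 𝟙 X))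



/-- If `Ĥ^n(G, X₃) = 0` in a short exact sequence whose first map is multiplication by `m` on `X`,
then `m` is surjective on `Ĥ^n(G, X)`. -/
lemma fg_nsmul_surjective_of_isZero [Fintype G] {X X₃ : Rep R G} (m : ℕ) (f : X ⟶ X)
    (hf : f = m • 𝟙 X) (g : X ⟶ X₃)
    (w : f ≫ g = 0) (hS : (ShortComplex.mk f g w).ShortExact) (n : ℤ)
    (h3 : Limits.IsZero (tateCohomology X₃ n)) (x : tateCohomology X n) :
    ∃ y : tateCohomology X n, m • y = x := by
  subst hf
  have hex := (TateCohomology.map_tateComplexFunctor_shortExact hS).homology_exact₂ n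
  rw [ShortComplex.moduleCat_exact_iff] at hex
  obtain ⟨y, hy⟩ := hex x (@Subsingleton.elim _ (ModuleCat.isZero_iff_subsingleton.1 h3) _ _)
  refine ⟨y, ?_⟩
  have h1 : (tateCohomologyFunctor n).map (m • 𝟙 X) = m • 𝟙 (tateCohomology X n) := by
    rw [Functor.map_nsmul, CategoryTheory.Functor.map_id]
  have h2 : ((tateCohomologyFunctor n).map (m • 𝟙 X)).hom y = x := hy
  rw [h1] at h2
  rw [← h2]
  rfl

/-- A `p`-divisible abelian group killed by a power of `p` is trivial. -/
lemma fg_eq_zero_of_divisible {M : Type*} [AddCommGroup M] (p a : ℕ)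
    (hdiv : ∀ x : M, ∃ y : M, p • y = x) (hkill : ∀ x : M, p ^ a • x = 0) (x : M) : x = 0 := by
  have : ∀ k : ℕ, ∀ x : M, ∃ y : M, p ^ k • y = x := by
    intro k
    induction k with
    | zero => exact fun x => ⟨x, by simp⟩
    | succ k ih =>
      intro x
      obtain ⟨y, rfl⟩ := ih x
      obtain ⟨z, rfl⟩ := hdiv y
      exact ⟨z, by rw [pow_succ, mul_smul]⟩
  obtain ⟨y, rfl⟩ := this a x
  exact hkill y


end modm

end

end Fermat.Agent.S55
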