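import Fermat.Agent.S55.FinGrp.Sylow

set_option autoImplicit false

/-!
# Cohomologically trivial representations (S55, block (A1))

`fg_CohTrivial A`: all Tate cohomology groups of all subgroups vanish.
-/

universe u

open CategoryTheory

namespace Fermat.Agent.S55

noncomputable section

variable {R G : Type u} [CommRing R] [Group G]

/-- Trace-one representations are Tate-acyclic over every finite group mapping injectively
to `G`. -/
theorem fg_isZero_tate_res_of_trace' [Fintype G] {H : Type u} [Group H] [Fintype H] (f : H →* G)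
    (hf : Function.Injective f) (A : Rep R G) (π : A.V →ₗ[R] A.V)
    (hπ : ∀ a, ∑ g : G, A.ρ g (π (A.ρ g⁻¹ a)) = a) (n : ℤ) :
    Limits.IsZero (tateCohomology (Rep.res f A) n) :=
  fg_isZero_tate_of_retract ((Rep.resFunctor f).map (fg_ι A)) ((Rep.resFunctor f).map (fg_β A π))
    (by rw [← Functor.map_comp, fg_ι_β A π hπ, CategoryTheory.Functor.map_id]) n
    (fg_isZero_tate_res_coind₁' f hf A n)

/-- Trace-one representations are Tate-acyclic over every subgroup. -/
theorem fg_isZero_tate_res_of_trace [Fintype G] (H : Subgroup G) [Fintype H] (A : Rep R G)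
    (π : A.V →ₗ[R] A.V) (hπ : ∀ a, ∑ g : G, A.ρ g (π (A.ρ g⁻¹ a)) = a) (n : ℤ) :
    Limits.IsZero (tateCohomology (Rep.res H.subtype A) n) :=
  fg_isZero_tate_res_of_trace' H.subtype Subtype.val_injective A π hπ n

/-- `A` is cohomologically trivial: `Ĥ^n(H, A) = 0` for all subgroups `H` and all `n : ℤ`. -/
def fg_CohTrivial (A : Rep R G) : Prop :=
  ∀ (H : Subgroup G) [Fintype H] (n : ℤ),
    Limits.IsZero (tateCohomology (Rep.res H.subtype A) n)

theorem fg_cohTrivial_of_trace [Fintype G] (A : Rep R G) (π : A.V →ₗ[R] A.V)
    (hπ : ∀ a, ∑ g : G, A.ρ g (π (A.ρ g⁻¹ a)) = a) : fg_CohTrivial A :=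
  fun H _ n => fg_isZero_tate_res_of_trace H A π hπ n

theorem fg_cohTrivial_coind₁ (A : Rep R G) : fg_CohTrivial (fg_coind₁ A) :=
  fun H _ n => fg_isZero_tate_res_coind₁ H A n

theorem fg_cohTrivial_up_iff (A : Rep R G) : fg_CohTrivial (fg_up A) ↔ fg_CohTrivial A := by
  constructor
  · intro h H _ n
    have h1 := h H (n - 1)
    have e := fg_upIso H.subtype Subtype.val_injective A (n - 1)
    rw [sub_add_cancel] at e
    exact h1.of_iso e.symm
  · intro h H _ n
    exact (h H (n + 1)).of_iso (fg_upIso H.subtype Subtype.val_injective A n)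

theorem fg_cohTrivial_down_iff [Fintype G] (A : Rep R G) :
    fg_CohTrivial (fg_down A) ↔ fg_CohTrivial A := by
  constructor
  · intro h H _ n
    exact (h H (n + 1)).of_iso (fg_downIso H.subtype Subtype.val_injective A n)
  · intro h H _ n
    have h1 := h H (n - 1)
    have e := fg_downIso H.subtype Subtype.val_injective A (n - 1)
    rw [sub_add_cancel] at e
    exact h1.of_iso e.symm

/-- The whole group, seen as the layer `MonoidHom.id G`. -/
theorem fg_CohTrivial.isZero [Fintype G] {A : Rep R G} (h : fg_CohTrivial A) (n : ℤ) :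
    Limits.IsZero (tateCohomology A n) := by
  classical
  refine fg_isZero_tate_of_sylow A n fun p _ P _ => h (P : Subgroup G) n

section transport

variable [Fintype G]

omit [Fintype G] in
lemma fg_res_res {K H : Type u} [Group K] [Group H] (f : K →* H) (g : H →* G) (A : Rep R G) :
    Rep.res f (Rep.res g A) = Rep.res (g.comp f) A := rfl

omit [Fintype G] in
/-- Invariance of Tate-vanishing under an isomorphism of the acting group: positive degrees. -/
lemma fg_isZero_tate_equiv_pos {K K' : Type u} [Group K] [Group K'] [Fintype K] [Fintype K']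
    (e : K ≃* K') (f' : K' →* G) (A : Rep R G) (n : ℕ)
    (h : Limits.IsZero (tateCohomology (Rep.res f' A) ((n + 1 : ℕ) : ℤ))) :
    Limits.IsZero (tateCohomology (Rep.res (f'.comp (e : K →* K')) A) ((n + 1 : ℕ) : ℤ)) := by
  have h1 : Limits.IsZero (groupCohomology (Rep.res f' A) (n + 1)) :=
    h.of_iso ((TateCohomology.isoGroupCohomology (n + 1)).app (Rep.res f' A)).symm
  have h2 : Limits.IsZero (groupCohomology (Rep.res (f'.comp (e : K →* K')) A) (n + 1)) :=
    h1.of_iso (groupCohomology.mapIso e (LinearEquiv.refl R A.V) (fun g => rfl) (n + 1))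
  exact h2.of_iso ((TateCohomology.isoGroupCohomology (n + 1)).app _)

/-- The property transported by dimension shifting. -/
def fg_EquivInv {K K' : Type u} [Group K] [Group K'] [Fintype K] [Fintype K']
    (e : K ≃* K') (f' : K' →* G) (n : ℤ) : Prop :=
  ∀ A : Rep R G, Limits.IsZero (tateCohomology (Rep.res f' A) n) →
    Limits.IsZero (tateCohomology (Rep.res (f'.comp (e : K →* K')) A) n)

lemma fg_equivInv_pred {K K' : Type u} [Group K] [Group K'] [Fintype K] [Fintype K']
    (e : K ≃* K') (f' : K' →* G) (hf' : Function.Injective f') (n : ℤ)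
    (h : fg_EquivInv (R := R) e f' (n + 1)) : fg_EquivInv (R := R) e f' n := by
  intro A hz
  have hinj : Function.Injective (f'.comp (e : K →* K')) := hf'.comp e.injective
  have h1 : Limits.IsZero (tateCohomology (Rep.res f' (fg_down A)) (n + 1)) :=
    hz.of_iso (fg_downIso f' hf' A n).symm
  exact (h (fg_down A) h1).of_iso (fg_downIso (f'.comp (e : K →* K')) hinj A n)

/-- Invariance of Tate-vanishing under an isomorphism of the acting group, all degrees. -/
theorem fg_isZero_tate_equiv {K K' : Type u} [Group K] [Group K'] [Fintype K] [Fintype K']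
    (e : K ≃* K') (f' : K' →* G) (hf' : Function.Injective f') (A : Rep R G) (n : ℤ)
    (h : Limits.IsZero (tateCohomology (Rep.res f' A) n)) :
    Limits.IsZero (tateCohomology (Rep.res (f'.comp (e : K →* K')) A) n) := by
  have key : ∀ (k : ℕ) (n : ℤ), n + k ≥ 1 → fg_EquivInv (R := R) e f' n := by
    intro k
    induction k with
    | zero =>
      intro n hn A hz
      obtain ⟨m, rfl⟩ : ∃ m : ℕ, n = ((m + 1 : ℕ) : ℤ) :=
        ⟨(n - 1).toNat, by push_cast; omega⟩
      exact fg_isZero_tate_equiv_pos e f' A m hz
    | succ k ih =>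
      intro n hn
      exact fg_equivInv_pred e f' hf' n (ih (n + 1) (by push_cast at hn ⊢; omega))
  exact key (1 - n).toNat n (by omega) A h



omit [Fintype G] in
/-- Transport of Tate-vanishing along an equality of group homomorphisms. -/
lemma fg_isZero_tate_congr {K : Type u} [Group K] [Fintype K] {f f' : K →* G} (hff' : f = f')
    (A : Rep R G) (n : ℤ) (h : Limits.IsZero (tateCohomology (Rep.res f A) n)) :
    Limits.IsZero (tateCohomology (Rep.res f' A) n) := by
  subst hff'; exact h

/-- A cohomologically trivial representation is Tate-acyclic over every finite group mapping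
injectively to `G`. -/
theorem fg_CohTrivial.isZero_res {A : Rep R G} (h : fg_CohTrivial A) {K : Type u} [Group K]
    [Fintype K] (f : K →* G) (hf : Function.Injective f) (n : ℤ) :
    Limits.IsZero (tateCohomology (Rep.res f A) n) := by
  classical
  have h1 := fg_isZero_tate_equiv (MonoidHom.ofInjective hf) f.range.subtype
    Subtype.val_injective A n (h f.range n)
  exact fg_isZero_tate_congr (MonoidHom.ext fun _ => rfl) A n h1

/-- Restriction to a subgroup preserves cohomological triviality. -/
theorem fg_CohTrivial.res {A : Rep R G} (h : fg_CohTrivial A) (H : Subgroup G) :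
    fg_CohTrivial (Rep.res H.subtype A) := by
  intro K _ n
  rw [fg_res_res]
  exact h.isZero_res (H.subtype.comp K.subtype)
    (Subtype.val_injective.comp Subtype.val_injective) n

/-- **Sylow criterion for cohomological triviality**: it suffices to check the `p`-subgroups
of `G` (all primes `p`). -/
theorem fg_cohTrivial_of_pGroups (A : Rep R G)
    (h : ∀ (p : ℕ) [Fact p.Prime] (K : Subgroup G) [Fintype K], IsPGroup p K → ∀ n : ℤ,
      Limits.IsZero (tateCohomology (Rep.res K.subtype A) n)) : fg_CohTrivial A := by
  classical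
  intro H _ n
  refine fg_isZero_tate_of_sylow (Rep.res H.subtype A) n fun p _ P _ => ?_
  have hK : IsPGroup p ((P : Subgroup H).map H.subtype) :=
    P.isPGroup'.map H.subtype
  have h1 := fg_isZero_tate_equiv
    ((P : Subgroup H).equivMapOfInjective H.subtype Subtype.val_injective)
    ((P : Subgroup H).map H.subtype).subtype Subtype.val_injective A n
    (h p ((P : Subgroup H).map H.subtype) hK n)
  rw [fg_res_res]
  exact fg_isZero_tate_congr (MonoidHom.ext fun _ => rfl) A n h1


end transport

end

end Fermat.Agent.S55
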