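import Mathlib

set_option autoImplicit false

/-!
# The coinduced module `Fun(G, A)` used for dimension shifting (S55, block (A1))

For `A : Rep R G` we let `G` act on functions `G → A` by right translation,
`(g • φ) x = φ (x * g)`.  The map `a ↦ (x ↦ ρ x a)` embeds `A` equivariantly, and for finite `G`
the map `φ ↦ ∑ g, ρ g⁻¹ (φ g)` is an equivariant surjection onto `A`.
-/

universe u

open CategoryTheory

namespace Fermat.Agent.S55

noncomputable section

variable {R G : Type u} [CommRing R] [Group G]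

/-- Right translation representation on functions `G → V`. -/
def fg_funRep (R : Type u) (G : Type u) [CommRing R] [Group G] (V : Type u) [AddCommGroup V]
    [Module R V] : Representation R G (G → V) where
  toFun g := LinearMap.funLeft R V (· * g)
  map_one' := by ext φ x; simp
  map_mul' g h := by ext φ x; simp [mul_assoc]

@[simp]
lemma fg_funRep_apply {V : Type u} [AddCommGroup V] [Module R V] (g : G) (φ : G → V) (x : G) :
    fg_funRep R G V g φ x = φ (x * g) := rfl

/-- The coinduced module `Fun(G, A)`; it only depends on the underlying module of `A`. -/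
abbrev fg_coind₁ (A : Rep R G) : Rep R G := Rep.of (fg_funRep R G A.V)

/-- The equivariant embedding `A → Fun(G, A)`, `a ↦ (x ↦ ρ x a)`. -/
def fg_ι (A : Rep R G) : A ⟶ fg_coind₁ A :=
  Rep.ofHom ⟨LinearMap.pi fun x => A.ρ x, fun g => by
    ext a x
    simp [map_mul]⟩

@[simp]
lemma fg_ι_apply (A : Rep R G) (a : A.V) (x : G) : (fg_ι A).hom a x = A.ρ x a := rfl


instance fg_ι_mono (A : Rep R G) : Mono (fg_ι A) := by
  rw [Rep.mono_iff_injective]
  intro a b h
  have := congrFun h 1
  rw [fg_ι_apply, fg_ι_apply] at this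
  simpa using this

/-- `fg_coind₁` on morphisms. -/
def fg_coind₁Map {A B : Rep R G} (f : A ⟶ B) : fg_coind₁ A ⟶ fg_coind₁ B :=
  Rep.ofHom ⟨f.hom.toLinearMap.compLeft G, fun g => by ext φ x; rfl⟩

@[simp]
lemma fg_coind₁Map_apply {A B : Rep R G} (f : A ⟶ B) (φ : G → A.V) (x : G) :
    (fg_coind₁Map f).hom φ x = f.hom (φ x) := rfl

lemma fg_ι_naturality {A B : Rep R G} (f : A ⟶ B) : fg_ι A ≫ fg_coind₁Map f = f ≫ fg_ι B := by
  ext a x
  show (fg_coind₁Map f).hom ((fg_ι A).hom a) x = (fg_ι B).hom (f.hom a) x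
  rw [fg_coind₁Map_apply, fg_ι_apply, fg_ι_apply, Rep.hom_comm_apply]


section finite

variable [Fintype G]

/-- The linear map underlying `fg_ε`. -/
def fg_εLin (A : Rep R G) : (G → A.V) →ₗ[R] A.V :=
  ∑ g : G, A.ρ g⁻¹ ∘ₗ LinearMap.proj g

lemma fg_εLin_apply (A : Rep R G) (φ : G → A.V) : fg_εLin A φ = ∑ g : G, A.ρ g⁻¹ (φ g) := by
  simp [fg_εLin, LinearMap.sum_apply]

/-- The equivariant surjection `Fun(G, A) → A`, `φ ↦ ∑ g, ρ g⁻¹ (φ g)`. -/
def fg_ε (A : Rep R G) : fg_coind₁ A ⟶ A :=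
  Rep.ofHom ⟨fg_εLin A, fun h => by
    ext φ
    show fg_εLin A (fg_funRep R G A.V h φ) = A.ρ h (fg_εLin A φ)
    rw [fg_εLin_apply, fg_εLin_apply, map_sum]
    refine (Fintype.sum_equiv (Equiv.mulRight h) _ _ fun g => ?_)

    simp [← Module.End.mul_apply, ← map_mul]⟩

lemma fg_ε_apply (A : Rep R G) (φ : G → A.V) : (fg_ε A).hom φ = ∑ g : G, A.ρ g⁻¹ (φ g) :=
  fg_εLin_apply A φ


end finite

end

end Fermat.Agent.S55
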