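import Fermat.Agent.S55.FinGrp.Vanish

set_option autoImplicit false

/-!
# Dimension shifting for Tate cohomology, simultaneously for all subgroups (S55, block (A1)(c))

For `A : Rep R G` we have the short exact sequences

* `0 → A → Fun(G, A) → fg_up A → 0` (`fg_upSC`),
* `0 → fg_down A → Fun(G, A) → A → 0` (`fg_downSC`, `G` finite),

whose middle term has vanishing Tate cohomology over every finite group `H` mapping injectively
to `G` (in particular every subgroup).  Hence the connecting maps of the Tate long exact sequence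
are isomorphisms `Ĥ^n(H, fg_up A) ≅ Ĥ^(n+1)(H, A)` and `Ĥ^n(H, A) ≅ Ĥ^(n+1)(H, fg_down A)`.
-/

universe u

open CategoryTheory

namespace Fermat.Agent.S55

noncomputable section

variable {R G : Type u} [CommRing R] [Group G]

/-- The cokernel of `A → Fun(G, A)`. -/
def fg_up (A : Rep R G) : Rep R G := Limits.cokernel (fg_ι A)

/-- The projection `Fun(G, A) → fg_up A`. -/
def fg_upπ (A : Rep R G) : fg_coind₁ A ⟶ fg_up A := Limits.cokernel.π (fg_ι A)

instance fg_upπ_epi (A : Rep R G) : Epi (fg_upπ A) :=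
  (inferInstance : Epi (Limits.cokernel.π (fg_ι A)))

@[reassoc]
lemma fg_ι_upπ (A : Rep R G) : fg_ι A ≫ fg_upπ A = 0 := Limits.cokernel.condition _

/-- The short complex `A → Fun(G, A) → fg_up A`. -/
def fg_upSC (A : Rep R G) : ShortComplex (Rep R G) :=
  ShortComplex.mk (fg_ι A) (fg_upπ A) (fg_ι_upπ A)

lemma fg_upSC_shortExact (A : Rep R G) : (fg_upSC A).ShortExact where
  exact := ShortComplex.exact_cokernel _
  mono_f := inferInstanceAs (Mono (fg_ι A))
  epi_g := inferInstanceAs (Epi (fg_upπ A))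

/-- Functoriality of `fg_up`. -/
def fg_upMap {A B : Rep R G} (φ : A ⟶ B) : fg_up A ⟶ fg_up B :=
  Limits.cokernel.map (fg_ι A) (fg_ι B) φ (fg_coind₁Map φ) (fg_ι_naturality φ)

@[reassoc]
lemma fg_upπ_naturality {A B : Rep R G} (φ : A ⟶ B) :
    fg_upπ A ≫ fg_upMap φ = fg_coind₁Map φ ≫ fg_upπ B := by
  exact Limits.cokernel.π_desc _ _ _

/-- The morphism of short complexes induced by `φ : A ⟶ B`. -/
def fg_upSCMap {A B : Rep R G} (φ : A ⟶ B) : fg_upSC A ⟶ fg_upSC B where
  τ₁ := φ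
  τ₂ := fg_coind₁Map φ
  τ₃ := fg_upMap φ
  comm₁₂ := (fg_ι_naturality φ).symm
  comm₂₃ := (fg_upπ_naturality φ).symm

section res

variable {H : Type u} [Group H] (f : H →* G)

lemma fg_upSC_res_shortExact (A : Rep R G) :
    ((fg_upSC A).map (Rep.resFunctor f)).ShortExact :=
  (Rep.shortExact_res f).2 (fg_upSC_shortExact A)

variable [Fintype H]

/-- The connecting map `Ĥ^n(H, fg_up A) ⟶ Ĥ^(n+1)(H, A)`. -/
def fg_upδ (A : Rep R G) (n : ℤ) :
    tateCohomology (Rep.res f (fg_up A)) n ⟶ tateCohomology (Rep.res f A) (n + 1) :=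
  TateCohomology.δ (fg_upSC_res_shortExact f A) n

lemma fg_upδ_isIso (hf : Function.Injective f) (A : Rep R G) (n : ℤ) : IsIso (fg_upδ f A n) :=
  ShortComplex.ShortExact.isIso_δ _ n (n + 1) rfl
    (fg_isZero_tate_res_coind₁' f hf A n) (fg_isZero_tate_res_coind₁' f hf A (n + 1))

/-- Dimension shifting upwards: `Ĥ^n(H, fg_up A) ≅ Ĥ^(n+1)(H, A)`. -/
def fg_upIso (hf : Function.Injective f) (A : Rep R G) (n : ℤ) :
    tateCohomology (Rep.res f (fg_up A)) n ≅ tateCohomology (Rep.res f A) (n + 1) :=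
  @asIso _ _ _ _ (fg_upδ f A n) (fg_upδ_isIso f hf A n)

lemma fg_upδ_naturality {A B : Rep R G} (φ : A ⟶ B) (n : ℤ) :
    fg_upδ f A n ≫ (tateCohomologyFunctor (n + 1)).map ((Rep.resFunctor f).map φ) =
      (tateCohomologyFunctor n).map ((Rep.resFunctor f).map (fg_upMap φ)) ≫ fg_upδ f B n :=
  TateCohomology.δ_naturality (fg_upSC_res_shortExact f A) (fg_upSC_res_shortExact f B)
    ((Rep.resFunctor f).mapShortComplex.map (fg_upSCMap φ)) n

end res

section down

variable [Fintype G]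

lemma fg_ε_naturality {A B : Rep R G} (φ : A ⟶ B) : fg_coind₁Map φ ≫ fg_ε B = fg_ε A ≫ φ := by
  ext ψ
  show (fg_ε B).hom ((fg_coind₁Map φ).hom ψ) = φ.hom ((fg_ε A).hom ψ)
  rw [fg_ε_apply, fg_ε_apply, map_sum]
  refine Finset.sum_congr rfl fun g _ => ?_
  rw [fg_coind₁Map_apply, Rep.hom_comm_apply]

open Classical in
instance fg_ε_epi (A : Rep R G) : Epi (fg_ε A) := by
  rw [Rep.epi_iff_surjective]
  intro a
  refine ⟨Pi.single 1 a, ?_⟩
  rw [fg_ε_apply, Finset.sum_eq_single 1]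
  · simp
  · intro g _ hg
    rw [Pi.single_apply, if_neg hg, map_zero]
  · intro h; exact absurd (Finset.mem_univ _) h

/-- The kernel of `Fun(G, A) → A`. -/
def fg_down (A : Rep R G) : Rep R G := Limits.kernel (fg_ε A)

/-- The inclusion `fg_down A → Fun(G, A)`. -/
def fg_downι (A : Rep R G) : fg_down A ⟶ fg_coind₁ A := Limits.kernel.ι (fg_ε A)

instance fg_downι_mono (A : Rep R G) : Mono (fg_downι A) :=
  (inferInstance : Mono (Limits.kernel.ι (fg_ε A)))

@[reassoc]
lemma fg_downι_ε (A : Rep R G) : fg_downι A ≫ fg_ε A = 0 := Limits.kernel.condition _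

/-- The short complex `fg_down A → Fun(G, A) → A`. -/
def fg_downSC (A : Rep R G) : ShortComplex (Rep R G) :=
  ShortComplex.mk (fg_downι A) (fg_ε A) (fg_downι_ε A)

lemma fg_downSC_shortExact (A : Rep R G) : (fg_downSC A).ShortExact where
  exact := ShortComplex.exact_kernel _
  mono_f := inferInstanceAs (Mono (fg_downι A))
  epi_g := inferInstanceAs (Epi (fg_ε A))

/-- Functoriality of `fg_down`. -/
def fg_downMap {A B : Rep R G} (φ : A ⟶ B) : fg_down A ⟶ fg_down B :=
  Limits.kernel.map (fg_ε A) (fg_ε B) (fg_coind₁Map φ) φ (fg_ε_naturality φ).symm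

@[reassoc]
lemma fg_downι_naturality {A B : Rep R G} (φ : A ⟶ B) :
    fg_downMap φ ≫ fg_downι B = fg_downι A ≫ fg_coind₁Map φ :=
  Limits.kernel.lift_ι _ _ _

/-- The morphism of short complexes induced by `φ : A ⟶ B`. -/
def fg_downSCMap {A B : Rep R G} (φ : A ⟶ B) : fg_downSC A ⟶ fg_downSC B where
  τ₁ := fg_downMap φ
  τ₂ := fg_coind₁Map φ
  τ₃ := φ
  comm₁₂ := (fg_downι_naturality φ)
  comm₂₃ := (fg_ε_naturality φ)

section res

variable {H : Type u} [Group H] (f : H →* G)

lemma fg_downSC_res_shortExact (A : Rep R G) :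
    ((fg_downSC A).map (Rep.resFunctor f)).ShortExact :=
  (Rep.shortExact_res f).2 (fg_downSC_shortExact A)

variable [Fintype H]

/-- The connecting map `Ĥ^n(H, A) ⟶ Ĥ^(n+1)(H, fg_down A)`. -/
def fg_downδ (A : Rep R G) (n : ℤ) :
    tateCohomology (Rep.res f A) n ⟶ tateCohomology (Rep.res f (fg_down A)) (n + 1) :=
  TateCohomology.δ (fg_downSC_res_shortExact f A) n

lemma fg_downδ_isIso (hf : Function.Injective f) (A : Rep R G) (n : ℤ) :
    IsIso (fg_downδ f A n) :=
  ShortComplex.ShortExact.isIso_δ _ n (n + 1) rfl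
    (fg_isZero_tate_res_coind₁' f hf A n) (fg_isZero_tate_res_coind₁' f hf A (n + 1))

/-- Dimension shifting downwards: `Ĥ^n(H, A) ≅ Ĥ^(n+1)(H, fg_down A)`. -/
def fg_downIso (hf : Function.Injective f) (A : Rep R G) (n : ℤ) :
    tateCohomology (Rep.res f A) n ≅ tateCohomology (Rep.res f (fg_down A)) (n + 1) :=
  @asIso _ _ _ _ (fg_downδ f A n) (fg_downδ_isIso f hf A n)

lemma fg_downδ_naturality {A B : Rep R G} (φ : A ⟶ B) (n : ℤ) :
    fg_downδ f A n ≫
        (tateCohomologyFunctor (n + 1)).map ((Rep.resFunctor f).map (fg_downMap φ)) =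
      (tateCohomologyFunctor n).map ((Rep.resFunctor f).map φ) ≫ fg_downδ f B n :=
  TateCohomology.δ_naturality (fg_downSC_res_shortExact f A) (fg_downSC_res_shortExact f B)
    ((Rep.resFunctor f).mapShortComplex.map (fg_downSCMap φ)) n

end res

end down


end

end Fermat.Agent.S55
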