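import Fermat.Agent.S55.FinGrp.Coind1

set_option autoImplicit false

/-!
# Tate cohomology of relatively projective representations vanishes (S55, block (A1)(b))

* `fg_isZero_tate_coind₁`: `Ĥ^n(G, Fun(G, A)) = 0` for all `n : ℤ`.
* `fg_isZero_tate_of_trace`: if `id_A = ∑ g, ρ g ∘ π ∘ ρ g⁻¹` for some linear `π`, then
  `Ĥ^n(G, A) = 0` for all `n : ℤ`.
* `fg_isZero_tate_res_coind₁`: `Ĥ^n(H, Fun(G, A)) = 0` for every subgroup `H ≤ G`.
-/

universe u

open CategoryTheory

namespace Fermat.Agent.S55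

noncomputable section

section general

variable {R G : Type u} [CommRing R] [Group G]

/-- `Fun(G, V)` is Mathlib's coinduction from the trivial subgroup. -/
def fg_coind₁IsoCoind (A : Rep R G) :
    fg_coind₁ A ≅ Rep.coind (⊥ : Subgroup G).subtype (Rep.trivial R (⊥ : Subgroup G) A.V) :=
  Rep.mkIso (Representation.Equiv.mk
    { toFun := fun φ => ⟨φ, fun s h => by
        have : (s : G) = 1 := Subgroup.mem_bot.1 s.2
        simp [this]⟩
      map_add' := fun _ _ => rfl
      map_smul' := fun _ _ => rfl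
      invFun := fun φ => φ.1
      left_inv := fun _ => rfl
      right_inv := fun _ => rfl }
    (fun g => by ext φ x; rfl))

lemma fg_isZero_groupCohomology_coind₁ (A : Rep R G) (n : ℕ) :
    Limits.IsZero (groupCohomology (fg_coind₁ A) (n + 1)) := by
  have h1 := isZero_groupCohomology_succ_of_subsingleton
    (Rep.trivial R (⊥ : Subgroup G) A.V) n
  have h2 := h1.of_iso (groupCohomology.coindIso (Rep.trivial R (⊥ : Subgroup G) A.V) (n + 1))
  exact h2.of_iso ((groupCohomology.functor R G (n + 1)).mapIso (fg_coind₁IsoCoind A))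


end general

variable {R G : Type u} [CommRing R] [Group G] [Fintype G]

open Classical in
lemma fg_isZero_groupHomology_coind₁ (A : Rep R G) (n : ℕ) :
    Limits.IsZero (groupHomology (fg_coind₁ A) (n + 1)) := by
  have h1 := isZero_groupHomology_succ_of_subsingleton
    (Rep.trivial R (⊥ : Subgroup G) A.V) n
  have h2 := h1.of_iso (groupHomology.indIso (⊥ : Subgroup G)
    (Rep.trivial R (⊥ : Subgroup G) A.V) (n + 1))
  have h3 := h2.of_iso ((groupHomology.functor R G (n + 1)).mapIso
    (Rep.indCoindIso (Rep.trivial R (⊥ : Subgroup G) A.V)).symm)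
  exact h3.of_iso ((groupHomology.functor R G (n + 1)).mapIso (fg_coind₁IsoCoind A))

lemma fg_isZero_tate_coind₁_pos (A : Rep R G) (n : ℕ) :
    Limits.IsZero (tateCohomology (fg_coind₁ A) ((n + 1 : ℕ) : ℤ)) :=
  (fg_isZero_groupCohomology_coind₁ A n).of_iso
    ((TateCohomology.isoGroupCohomology (n + 1)).app (fg_coind₁ A))

lemma fg_isZero_tate_coind₁_neg (A : Rep R G) (n : ℕ) :
    Limits.IsZero (tateCohomology (fg_coind₁ A) (-((n + 1 : ℕ) + 1 : ℤ))) :=
  (fg_isZero_groupHomology_coind₁ A n).of_iso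
    ((TateCohomology.isoGroupHomology (-((n + 1 : ℕ) + 1 : ℤ)) (n + 1) rfl).app (fg_coind₁ A))


open Classical in
lemma fg_norm_single (A : Rep R G) (v : A.V) (z : G) :
    (fg_coind₁ A).ρ.norm (Pi.single 1 v) z = v := by
  classical
  rw [Representation.norm, LinearMap.sum_apply, Finset.sum_apply]
  rw [Finset.sum_eq_single z⁻¹]
  · show (Pi.single 1 v : G → A.V) (z * z⁻¹) = v
    simp
  · intro g _ hg
    show (Pi.single 1 v : G → A.V) (z * g) = 0
    rw [Pi.single_apply, if_neg]
    intro h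
    exact hg (eq_inv_of_mul_eq_one_right h)
  · intro h; exact absurd (Finset.mem_univ _) h

open Classical in
lemma fg_isZero_tate_coind₁_zero (A : Rep R G) :
    Limits.IsZero (tateCohomology (fg_coind₁ A) 0) := by
  show Limits.IsZero ((tateComplex (fg_coind₁ A)).homology 0)
  rw [← HomologicalComplex.exactAt_iff_isZero_homology,
    HomologicalComplex.exactAt_iff' _ (-1) 0 1 (by simp) (by simp),
    ShortComplex.moduleCat_exact_iff]
  intro x hx
  change (Fin 0 → G) → (G → A.V) at x
  change (groupCohomology.inhomogeneousCochains (fg_coind₁ A)).d 0 1 x = 0 at hx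
  show ∃ y : (Fin 0 → G) →₀ (G → A.V), (fg_coind₁ A).tateNorm y = x
  rw [groupCohomology.inhomogeneousCochains.d_def] at hx
  have hinv : ∀ h z : G, x default (z * h) = x default z := by
    intro h z
    have h1 : (inhomogeneousCochains.d (fg_coind₁ A) 0).hom x (fun _ => h) z = 0 := by
      rw [hx]; rfl
    rw [inhomogeneousCochains.d_hom_apply] at h1
    rw [Fin.sum_univ_one] at h1
    rw [Subsingleton.elim (fun i : Fin 0 => (fun _ : Fin 1 => h) i.succ) default,
      Subsingleton.elim (Fin.contractNth 0 (· * ·) (fun _ : Fin 1 => h)) default] at h1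
    have h2 : x default (z * h) + -(x default z) = 0 := by simpa using h1
    exact (add_neg_eq_zero.1 h2)
  refine ⟨Finsupp.single default (Pi.single 1 (x default 1)), ?_⟩
  rw [Rep.tateNorm_eq]
  funext i z
  rw [Subsingleton.elim i default]
  show (Finsupp.lsum R fun _ => LinearMap.pi fun _ => (fg_coind₁ A).ρ.norm)
    (Finsupp.single default (Pi.single 1 (x default 1))) default z = _
  rw [Finsupp.lsum_single]
  show (fg_coind₁ A).ρ.norm (Pi.single 1 (x default 1)) z = _
  rw [fg_norm_single]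
  have := hinv z 1
  rw [one_mul] at this
  exact this.symm


open Classical in
lemma fg_isZero_tate_coind₁_neg_one (A : Rep R G) :
    Limits.IsZero (tateCohomology (fg_coind₁ A) (-1)) := by
  show Limits.IsZero ((tateComplex (fg_coind₁ A)).homology (-1))
  rw [← HomologicalComplex.exactAt_iff_isZero_homology,
    HomologicalComplex.exactAt_iff' _ (-2) (-1) 0 (by simp) (by simp),
    ShortComplex.moduleCat_exact_iff]
  intro x hx
  change (Fin 0 → G) →₀ (G → A.V) at x
  change (fg_coind₁ A).tateNorm x = 0 at hx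
  show ∃ y : (Fin 1 → G) →₀ (G → A.V), (groupHomology.inhomogeneousChains (fg_coind₁ A)).d 1 0 y = x
  obtain ⟨m, rfl⟩ : ∃ m : G → A.V, x = Finsupp.single default m :=
    ⟨x default, Finsupp.unique_single x⟩
  have hm : ∑ g : G, m g = 0 := by
    rw [Rep.tateNorm_eq] at hx
    have h1 := congrFun (congrFun hx default) 1
    change (Finsupp.lsum R fun _ => LinearMap.pi fun _ => (fg_coind₁ A).ρ.norm)
      (Finsupp.single default m) default 1 = 0 at h1
    rw [Finsupp.lsum_single] at h1
    change (fg_coind₁ A).ρ.norm m 1 = 0 at h1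
    rw [Representation.norm, LinearMap.sum_apply, Finset.sum_apply] at h1
    rw [← h1]
    refine Finset.sum_congr rfl fun g _ => ?_
    show m g = m (1 * g)
    rw [one_mul]
  refine ⟨∑ g : G, Finsupp.single (fun _ => g) (Pi.single 1 (m g)), ?_⟩
  rw [map_sum]
  have hd : ∀ g : G, (groupHomology.inhomogeneousChains (fg_coind₁ A)).d 1 0
      (Finsupp.single (fun _ => g) (Pi.single 1 (m g))) =
      Finsupp.single default (Pi.single g (m g) - Pi.single 1 (m g)) := by
    intro g
    rw [groupHomology.inhomogeneousChains.d_def]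
    rw [groupHomology.inhomogeneousChains.d_single, Fin.sum_univ_one]
    rw [Subsingleton.elim (fun i : Fin 0 => (fun _ : Fin 1 => g) i.succ) default,
      Subsingleton.elim (Fin.contractNth 0 (· * ·) (fun _ : Fin 1 => g)) default]
    have h1 : (fg_coind₁ A).ρ g⁻¹ (Pi.single 1 (m g)) = Pi.single g (m g) := by
      funext z
      show (Pi.single 1 (m g) : G → A.V) (z * g⁻¹) = (Pi.single g (m g) : G → A.V) z
      rw [Pi.single_apply, Pi.single_apply]
      simp only [mul_inv_eq_one]
    rw [h1]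
    simp [sub_eq_add_neg]
  simp_rw [hd]
  rw [← Finsupp.single_finsetSum, Finset.sum_sub_distrib, Finset.univ_sum_single]
  have h2 : ∑ x : G, (Pi.single 1 (m x) : G → A.V) = 0 := by
    funext z
    rw [Finset.sum_apply]
    simp only [Pi.single_apply]
    by_cases hz : z = 1
    · simp [hz, hm]
    · simp [hz]
  rw [h2, sub_zero]


/-- `Ĥ^n(G, Fun(G, A)) = 0` for all `n : ℤ`. -/
theorem fg_isZero_tate_coind₁ (A : Rep R G) (n : ℤ) :
    Limits.IsZero (tateCohomology (fg_coind₁ A) n) := by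
  match n with
  | Int.ofNat 0 => exact fg_isZero_tate_coind₁_zero A
  | Int.ofNat (k + 1) => exact fg_isZero_tate_coind₁_pos A k
  | Int.negSucc 0 => exact fg_isZero_tate_coind₁_neg_one A
  | Int.negSucc (k + 1) =>
    rw [Int.negSucc_eq]
    exact fg_isZero_tate_coind₁_neg A k

/-- Tate cohomology of a retract of a Tate-acyclic representation vanishes. -/
lemma fg_isZero_tate_of_retract {A B : Rep R G} (i : A ⟶ B) (r : B ⟶ A) (h : i ≫ r = 𝟙 A)
    (n : ℤ) (hB : Limits.IsZero (tateCohomology B n)) : Limits.IsZero (tateCohomology A n) := by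
  rw [Limits.IsZero.iff_id_eq_zero]
  have h1 : (tateCohomologyFunctor n).map i ≫ (tateCohomologyFunctor n).map r = 𝟙 _ := by
    rw [← Functor.map_comp, h, CategoryTheory.Functor.map_id]
  rw [← h1, hB.eq_of_tgt ((tateCohomologyFunctor n).map i) 0, Limits.zero_comp]

/-- The retraction of `fg_ι A` attached to a linear map `π` with `∑ g, ρ g ∘ π ∘ ρ g⁻¹ = id`. -/
def fg_β (A : Rep R G) (π : A.V →ₗ[R] A.V) : fg_coind₁ A ⟶ A :=
  Rep.ofHom ⟨∑ g : G, A.ρ g⁻¹ ∘ₗ π ∘ₗ LinearMap.proj g, fun h => by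
    ext φ
    show (∑ g : G, A.ρ g⁻¹ ∘ₗ π ∘ₗ LinearMap.proj g) (fg_funRep R G A.V h φ) =
      A.ρ h ((∑ g : G, A.ρ g⁻¹ ∘ₗ π ∘ₗ LinearMap.proj g) φ)
    rw [LinearMap.sum_apply, LinearMap.sum_apply, map_sum]
    refine (Fintype.sum_equiv (Equiv.mulRight h) _ _ fun g => ?_)
    show A.ρ g⁻¹ (π (φ (g * h))) = A.ρ h (A.ρ (g * h)⁻¹ (π (φ (g * h))))
    have : A.ρ h (A.ρ (g * h)⁻¹ (π (φ (g * h)))) = A.ρ (h * (g * h)⁻¹) (π (φ (g * h))) := by
      rw [map_mul]; rfl
    rw [this]
    simp⟩

lemma fg_β_apply (A : Rep R G) (π : A.V →ₗ[R] A.V) (φ : G → A.V) :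
    (fg_β A π).hom φ = ∑ g : G, A.ρ g⁻¹ (π (φ g)) := by
  show (∑ g : G, A.ρ g⁻¹ ∘ₗ π ∘ₗ LinearMap.proj g) φ = _
  rw [LinearMap.sum_apply]; rfl

lemma fg_ι_β (A : Rep R G) (π : A.V →ₗ[R] A.V)
    (hπ : ∀ a, ∑ g : G, A.ρ g (π (A.ρ g⁻¹ a)) = a) : fg_ι A ≫ fg_β A π = 𝟙 A := by
  ext a
  show (fg_β A π).hom ((fg_ι A).hom a) = a
  rw [fg_β_apply]
  conv_rhs => rw [← hπ a]
  refine (Fintype.sum_equiv (Equiv.inv G) _ _ fun g => ?_)
  rw [fg_ι_apply]
  simp


/-- A representation whose identity is a `G`-trace of a linear endomorphism has vanishing Tate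
cohomology in all degrees. -/
theorem fg_isZero_tate_of_trace (A : Rep R G) (π : A.V →ₗ[R] A.V)
    (hπ : ∀ a, ∑ g : G, A.ρ g (π (A.ρ g⁻¹ a)) = a) (n : ℤ) :
    Limits.IsZero (tateCohomology A n) :=
  fg_isZero_tate_of_retract (fg_ι A) (fg_β A π) (fg_ι_β A π hπ) n (fg_isZero_tate_coind₁ A n)

section subgroups

variable {R G : Type u} [CommRing R] [Group G]

open Classical in
/-- Cutting a function down to a subset, as a linear map. -/
def fg_cut (R : Type u) [CommRing R] {G : Type u} (V : Type u) [AddCommGroup V] [Module R V]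
    (T : Set G) : (G → V) →ₗ[R] (G → V) where
  toFun φ x := if x ∈ T then φ x else 0
  map_add' φ ψ := by funext x; by_cases hx : x ∈ T <;> simp [hx]
  map_smul' c φ := by funext x; by_cases hx : x ∈ T <;> simp [hx]

omit [Group G] in
open Classical in
lemma fg_cut_apply {V : Type u} [AddCommGroup V] [Module R V] (T : Set G) (φ : G → V) (x : G) :
    fg_cut R V T φ x = if x ∈ T then φ x else 0 := rfl

/-- `Ĥ^n(H, Fun(G, A)) = 0` for every finite group `H` mapping injectively to `G`. -/
theorem fg_isZero_tate_res_coind₁' {H : Type u} [Group H] [Fintype H] (f : H →* G)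
    (hf : Function.Injective f) (A : Rep R G) (n : ℤ) :
    Limits.IsZero (tateCohomology (Rep.res f (fg_coind₁ A)) n) := by
  classical
  obtain ⟨T, hT, -⟩ := Subgroup.exists_isComplement_left f.range 1
  have key : ∀ x : G, ∃! h : H, x * (f h)⁻¹ ∈ T := by
    intro x
    obtain ⟨t, ht, huniq⟩ := Subgroup.isComplement_iff_existsUnique_mul_inv_mem.1 hT x
    obtain ⟨h, hh⟩ := t.2
    refine ⟨h, by simpa [hh] using ht, fun h' hh' => ?_⟩
    have := huniq ⟨f h', h', rfl⟩ (by simpa using hh')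
    apply hf
    rw [hh, ← this]
  refine fg_isZero_tate_of_trace (Rep.res f (fg_coind₁ A)) (fg_cut R A.V T) ?_ n
  intro φ
  change G → A.V at φ
  funext x
  rw [Finset.sum_apply]
  obtain ⟨h₀, hh₀, huniq⟩ := key x
  rw [Finset.sum_eq_single (h₀⁻¹ : H)]
  · show fg_cut R A.V T (fg_funRep R G A.V (f ((h₀⁻¹)⁻¹)) φ) (x * f h₀⁻¹) = φ x
    rw [fg_cut_apply, if_pos (by simpa using hh₀)]
    simp
  · intro h _ hne
    show fg_cut R A.V T (fg_funRep R G A.V (f h⁻¹) φ) (x * f h) = 0
    rw [fg_cut_apply, if_neg]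
    intro hmem
    apply hne
    have := huniq h⁻¹ (by simpa using hmem)
    rw [← this, inv_inv]
  · intro h; exact absurd (Finset.mem_univ _) h


/-- `Ĥ^n(H, Fun(G, A)) = 0` for every subgroup `H ≤ G` and every `n : ℤ`. -/
theorem fg_isZero_tate_res_coind₁ (H : Subgroup G) [Fintype H] (A : Rep R G) (n : ℤ) :
    Limits.IsZero (tateCohomology (Rep.res H.subtype (fg_coind₁ A)) n) :=
  fg_isZero_tate_res_coind₁' H.subtype Subtype.val_injective A n

end subgroups

end

end Fermat.Agent.S55
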